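import Mathlib
import Fermat.Agent.ProgramR.QExp.Laurent

/-!
# Laurent expansion of a real translate (Program R, package C)

If `f' τ = f (c + τ)` then the `n`-th Laurent coefficient of `f'` in `q_h` is
`exp(2πi c / h)^n` times that of `f`.
-/

set_option autoImplicit false

noncomputable section

open Complex Filter Function
open UpperHalfPlane hiding I
open scoped Real Topology Manifold

namespace Fermat.Agent.ProgramR.CuspLocal

local notation "𝕢" => Periodic.qParam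

/-- The multiplier `exp(2πi c / h)` of the parameter `q_h` under translation by `c`. -/
def twistFactor (h c : ℝ) : ℂ := Complex.exp (2 * π * I * c / h)

lemma twistFactor_ne_zero (h c : ℝ) : twistFactor h c ≠ 0 := Complex.exp_ne_zero _

lemma qParam_vadd (h c : ℝ) (τ : ℍ) :
    𝕢 h ((c +ᵥ τ : ℍ) : ℂ) = 𝕢 h τ * twistFactor h c := by
  rw [Periodic.qParam, Periodic.qParam, twistFactor, ← Complex.exp_add]
  congr 1
  rw [UpperHalfPlane.coe_vadd]
  ring

/-- Laurent coefficients of a translate. -/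
theorem laurentExp_coeff_of_vadd {h : ℝ} (hh : 0 < h) {m : ℕ} {f f' : ℍ → ℂ}
    (hf : QExp.IsMeroAtInfty h m f) (hf' : MDiff f') (c : ℝ)
    (hc : ∀ τ : ℍ, f' τ = f (c +ᵥ τ)) :
    QExp.IsMeroAtInfty h m f' ∧
    ∀ n : ℤ, (QExp.laurentExp h f').coeff n =
      twistFactor h c ^ n * (QExp.laurentExp h f).coeff n := by
  set ζ := twistFactor h c with hζ
  have hζ0 : ζ ≠ 0 := twistFactor_ne_zero h c
  have hb := hf.isHolPerBdd hh
  set a : ℕ → ℂ := fun n => PowerSeries.coeff n (qExpansion h (QExp.qPow h m * f)) with ha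
  have hsum : ∀ τ : ℍ, HasSum (fun n => a n • 𝕢 h τ ^ n) ((QExp.qPow h m * f) τ) :=
    fun τ => hasSum_qExpansion hh hb.periodic hb.holo hb.bdd τ
  -- the expansion of the translate
  have hsum' : ∀ τ : ℍ, HasSum (fun n => (a n * ζ ^ n * (ζ ^ m)⁻¹) • 𝕢 h τ ^ n)
      (𝕢 h τ ^ m * f' τ) := by
    intro τ
    have h1 := (hsum (c +ᵥ τ)).mul_right ((ζ ^ m)⁻¹)
    have h2 : (QExp.qPow h m * f) (c +ᵥ τ) * (ζ ^ m)⁻¹ = 𝕢 h τ ^ m * f' τ := by
      rw [Pi.mul_apply, QExp.qPow_apply, qParam_vadd, ← hζ, mul_pow, hc τ]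
      field_simp
    rw [h2] at h1
    have h3 : (fun n => (a n * ζ ^ n * (ζ ^ m)⁻¹) • 𝕢 h (τ : ℂ) ^ n) =
        fun i => a i • 𝕢 h ((c +ᵥ τ : ℍ) : ℂ) ^ i * (ζ ^ m)⁻¹ := by
      funext n
      rw [qParam_vadd, ← hζ, mul_pow, smul_eq_mul, smul_eq_mul]
      ring
    rw [h3]
    exact h1
  have hper : Periodic (f' ∘ ofComplex) h := by
    apply QExp.periodic_comp_ofComplex_of_vadd
    intro τ
    rw [hc, hc]
    have h3 : c +ᵥ (h +ᵥ τ) = h +ᵥ (c +ᵥ τ) := by
      rw [vadd_vadd, vadd_vadd, add_comm]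
    rw [h3]
    exact QExp.vadd_of_periodic_comp_ofComplex hf.periodic _
  have hmero : QExp.IsMeroAtInfty h m f' := by
    refine ⟨hf', hper, ?_⟩
    have := isBoundedAtImInfty_of_hasSum_qExpansion (f := QExp.qPow h m * f') hh
      (c := fun n => a n * ζ ^ n * (ζ ^ m)⁻¹) (fun τ => by simpa using hsum' τ)
    exact this
  refine ⟨hmero, fun n => ?_⟩
  rw [QExp.laurentExp_eq_of_hasSum hh hmero hsum', QExp.coeff_single_neg_mul_ofPowerSeries,
    QExp.laurentExp_coeff hh hf]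
  split_ifs with hn
  · rw [PowerSeries.coeff_mk]
    obtain ⟨k, hk⟩ := Int.eq_ofNat_of_zero_le hn
    have hn' : n = (k : ℤ) - m := by omega
    rw [hk, Int.toNat_natCast, hn', zpow_sub₀ hζ0, zpow_natCast, zpow_natCast]
    ring
  · rw [mul_zero]

end Fermat.Agent.ProgramR.CuspLocal
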