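import Mathlib
import Fermat.Agent.ProgramR.RR.Infty

/-!
# `Ainf` lies in every valuation ring at which `X` has a pole

For a field `F` over `RatFunc k` and a valuation subring `A` of `F` containing the constants and
not containing the image of `X`, the image of `Ainf k` (rational functions regular at infinity) lies
in `A`.
-/

set_option autoImplicit false
set_option linter.style.haveILetI false
set_option linter.unusedSectionVars false

noncomputable section

open Polynomial Fermat.Agent.ProgramR.RR

namespace Fermat.Agent.ProgramR.CuspLocal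

variable {k : Type*} [Field k] {F : Type*} [Field F] [Algebra (RatFunc k) F]

/-- evaluation of the reversed polynomial at `x⁻¹`. -/
lemma eval₂_eq_reverse_mul_pow (f : k →+* F) {x : F} (hx : x ≠ 0) (p : k[X]) :
    p.eval₂ f x = p.reverse.eval₂ f x⁻¹ * x ^ p.natDegree := by
  let _ : Invertible x := invertibleOfNonzero hx
  have h := Polynomial.eval₂_reverse_mul_pow f x p
  rw [invOf_eq_inv] at h
  exact h.symm

/-- a polynomial in a non-unit `u` of a valuation ring `A`, with coefficients in a subfield of `A`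
and nonzero constant coefficient, is a unit of `A`. -/
lemma eval₂_mem_and_inv_mem (A : ValuationSubring F) (f : k →+* F) (hf : ∀ c, f c ∈ A) {u : F}
    (hu : u ∈ A) (hu' : u⁻¹ ∉ A) (p : k[X]) :
    p.eval₂ f u ∈ A ∧ (p.coeff 0 ≠ 0 → (p.eval₂ f u)⁻¹ ∈ A) := by
  let φ : k →+* A := f.codRestrict A.toSubring hf
  let û : A := ⟨u, hu⟩
  have hval : ∀ q : k[X], ((q.eval₂ φ û : A) : F) = q.eval₂ f u := by
    intro q
    have h1 := Polynomial.hom_eval₂ q φ A.subtype û
    have h2 : A.subtype.comp φ = f := RingHom.ext fun c => rfl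
    rw [h2] at h1
    exact h1
  refine ⟨by rw [← hval]; exact (p.eval₂ φ û).2, fun h0 => ?_⟩
  have hûnon : ¬ IsUnit û := by
    intro hunit
    obtain ⟨w, hw⟩ := hunit.exists_right_inv
    apply hu'
    have h1 : u * (w : F) = 1 := by
      have := congrArg (fun a : A => (a : F)) hw
      simpa [û] using this
    have hu0 : u ≠ 0 := by
      rintro rfl
      simp at h1
    have : u⁻¹ = (w : F) := by
      field_simp
      linear_combination -h1
    rw [this]
    exact w.2
  have hdecomp : p.eval₂ φ û = p.divX.eval₂ φ û * û + φ (p.coeff 0) := by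
    conv_lhs => rw [← Polynomial.divX_mul_X_add p]
    rw [Polynomial.eval₂_add, Polynomial.eval₂_mul, Polynomial.eval₂_X, Polynomial.eval₂_C]
  have hunitc : IsUnit (φ (p.coeff 0)) := (IsUnit.mk0 _ h0).map φ
  have hnon : ¬ IsUnit (p.divX.eval₂ φ û * û) := by
    intro h
    exact hûnon (isUnit_of_mul_isUnit_right h)
  have hunit : IsUnit (p.eval₂ φ û) := by
    have h1 : IsUnit (p.eval₂ φ û + -(p.divX.eval₂ φ û * û)) := by
      rw [hdecomp]
      simpa using hunitc
    rcases IsLocalRing.isUnit_or_isUnit_of_isUnit_add h1 with h | h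
    · exact h
    · exact absurd (IsUnit.neg_iff _ |>.mp h) hnon
  obtain ⟨w, hw⟩ := hunit.exists_right_inv
  have h1 : p.eval₂ f u * (w : F) = 1 := by
    have := congrArg (fun a : A => (a : F)) hw
    simp only [MulMemClass.coe_mul, OneMemClass.coe_one, hval] at this
    exact this
  have hne : p.eval₂ f u ≠ 0 := by
    intro h
    rw [h, zero_mul] at h1
    exact zero_ne_one h1
  have : (p.eval₂ f u)⁻¹ = (w : F) := by
    field_simp
    linear_combination -h1
  rw [this]
  exact w.2

/-- **`Ainf` lies in the valuation ring of every pole of `X`.** -/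
theorem algebraMap_mem_of_mem_Ainf (A : ValuationSubring F)
    (hc : ∀ c : k, algebraMap (RatFunc k) F (RatFunc.C c) ∈ A)
    (hx : algebraMap (RatFunc k) F RatFunc.X ∉ A) {r : RatFunc k} (hr : r ∈ Ainf k) :
    algebraMap (RatFunc k) F r ∈ A := by
  by_cases hr0 : r = 0
  · rw [hr0, map_zero]
    exact A.zero_mem
  set x := algebraMap (RatFunc k) F RatFunc.X with hxdef
  have hx0 : x ≠ 0 := by
    intro h
    exact hx (h ▸ A.zero_mem)
  have hu : x⁻¹ ∈ A := (A.mem_or_inv_mem x).resolve_left hx
  have hu' : (x⁻¹)⁻¹ ∉ A := by rwa [inv_inv]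
  let f : k →+* F := (algebraMap (RatFunc k) F).comp (RatFunc.C : k →+* RatFunc k)
  have hf : ∀ c, f c ∈ A := hc
  have hpoly : ∀ p : k[X], algebraMap (RatFunc k) F (algebraMap k[X] (RatFunc k) p) =
      p.eval₂ f x := by
    intro p
    have h : (algebraMap (RatFunc k) F).comp (algebraMap k[X] (RatFunc k)) =
        Polynomial.eval₂RingHom f x := by
      apply Polynomial.ringHom_ext
      · intro c
        simp only [RingHom.comp_apply, Polynomial.coe_eval₂RingHom, Polynomial.eval₂_C, f]
        rw [RatFunc.algebraMap_C]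
      · simp only [RingHom.comp_apply, Polynomial.coe_eval₂RingHom, Polynomial.eval₂_X,
          RatFunc.algebraMap_X, hxdef]
    exact congrArg (fun g => g p) h
  have hdeg := (mem_Ainf_of_ne_zero hr0).mp hr
  have hnum : r.num ≠ 0 := RatFunc.num_ne_zero hr0
  have hden : r.denom ≠ 0 := RatFunc.denom_ne_zero r
  have hle : r.num.natDegree ≤ r.denom.natDegree := by
    have : r.intDegree = (r.num.natDegree : ℤ) - r.denom.natDegree := rfl
    omega
  obtain ⟨d, hd⟩ := Nat.exists_eq_add_of_le hle
  have h1 := eval₂_mem_and_inv_mem A f hf hu hu' r.num.reverse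
  have h2 := eval₂_mem_and_inv_mem A f hf hu hu' r.denom.reverse
  have h2' := h2.2 (by
    rw [Polynomial.coeff_zero_reverse]
    exact Polynomial.leadingCoeff_ne_zero.mpr hden)
  have key : algebraMap (RatFunc k) F r =
      r.num.reverse.eval₂ f x⁻¹ * (x⁻¹) ^ d * (r.denom.reverse.eval₂ f x⁻¹)⁻¹ := by
    conv_lhs => rw [← RatFunc.num_div_denom r]
    rw [map_div₀, hpoly, hpoly, eval₂_eq_reverse_mul_pow f hx0 r.num,
      eval₂_eq_reverse_mul_pow f hx0 r.denom, hd, pow_add]
    have hxp : x ^ r.num.natDegree ≠ 0 := pow_ne_zero _ hx0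
    have hxd : x ^ d ≠ 0 := pow_ne_zero _ hx0
    have hden' : r.denom.reverse.eval₂ f x⁻¹ ≠ 0 := by
      intro h
      have h3 : r.denom.eval₂ f x = 0 := by
        rw [eval₂_eq_reverse_mul_pow f hx0, h, zero_mul]
      rw [← hpoly] at h3
      have h4 := (map_eq_zero_iff _ (algebraMap (RatFunc k) F).injective).mp h3
      exact hden ((map_eq_zero_iff _ (RatFunc.algebraMap_injective k)).mp h4)
    rw [inv_pow]
    field_simp
  rw [key]
  exact A.mul_mem _ _ (A.mul_mem _ _ h1.1 (A.pow_mem hu d)) h2'

end Fermat.Agent.ProgramR.CuspLocal
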