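import Mathlib
import Fermat.Agent.ProgramR.Counting.CuspsGroup

/-!
# Widths of the cusps of `Γ₀(N)` (Program R, package C)

The width of the left coset `x = g Γ₀(N)` is the size of its `⟨T⟩`-orbit, i.e. the least `w > 0`
with `g⁻¹ T^w g ∈ Γ₀(N)`.  All widths divide `N`.
-/

set_option autoImplicit false

namespace Fermat.Agent.ProgramR.CuspLocal

open Matrix Matrix.SpecialLinearGroup CongruenceSubgroup
open scoped MatrixGroups ModularGroup

variable (N : ℕ)

/-- `T^N` fixes every left coset of `Γ₀(N)`. -/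
theorem T_zpow_N_smul_mk (g : SL(2, ℤ)) :
    (ModularGroup.T ^ (N : ℤ)) • (QuotientGroup.mk g : SL(2, ℤ) ⧸ Gamma0 N) =
      QuotientGroup.mk g := by
  rw [MulAction.Quotient.smul_mk, smul_eq_mul, eq_comm, P1.mk_eq_mk_iff]
  refine ⟨1, ?_⟩
  rw [col_T_zpow_mul]
  simp

theorem conj_T_zpow_N_mem (g : SL(2, ℤ)) :
    g⁻¹ * (ModularGroup.T ^ (N : ℤ) * g) ∈ Gamma0 N := by
  have h := T_zpow_N_smul_mk N g
  rw [MulAction.Quotient.smul_mk, smul_eq_mul, eq_comm, QuotientGroup.eq] at h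
  exact h

/-- `T^w • (g Γ) = g Γ` iff `g⁻¹ T^w g ∈ Γ`. -/
theorem T_zpow_smul_mk_eq_iff (g : SL(2, ℤ)) (w : ℤ) :
    (ModularGroup.T ^ w) • (QuotientGroup.mk g : SL(2, ℤ) ⧸ Gamma0 N) = QuotientGroup.mk g ↔
      g⁻¹ * (ModularGroup.T ^ w * g) ∈ Gamma0 N := by
  rw [MulAction.Quotient.smul_mk, smul_eq_mul, eq_comm, QuotientGroup.eq]

/-- The width of the cusp attached to a left coset of `Γ₀(N)`. -/
noncomputable def width (x : SL(2, ℤ) ⧸ Gamma0 N) : ℕ := MulAction.period ModularGroup.T x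

theorem T_pow_width_smul (x : SL(2, ℤ) ⧸ Gamma0 N) : ModularGroup.T ^ (width N x) • x = x :=
  MulAction.pow_period_smul _ _

theorem T_zpow_smul_eq_iff_width_dvd (x : SL(2, ℤ) ⧸ Gamma0 N) (k : ℤ) :
    ModularGroup.T ^ k • x = x ↔ (width N x : ℤ) ∣ k :=
  MulAction.zpow_smul_eq_iff_period_dvd

theorem width_dvd (x : SL(2, ℤ) ⧸ Gamma0 N) : width N x ∣ N := by
  induction x using QuotientGroup.induction_on with
  | H g =>
    have h := (T_zpow_smul_eq_iff_width_dvd N (QuotientGroup.mk g) (N : ℤ)).mp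
      (T_zpow_N_smul_mk N g)
    exact Int.natCast_dvd_natCast.mp h

theorem width_pos [NeZero N] (x : SL(2, ℤ) ⧸ Gamma0 N) : 0 < width N x :=
  Nat.pos_of_dvd_of_pos (width_dvd N x) (Nat.pos_of_ne_zero (NeZero.ne N))

theorem width_T_zpow_smul (x : SL(2, ℤ) ⧸ Gamma0 N) (k : ℤ) :
    width N (ModularGroup.T ^ k • x) = width N x := by
  apply Nat.dvd_antisymm
  · have h : ModularGroup.T ^ (width N x : ℤ) • (ModularGroup.T ^ k • x) =
        ModularGroup.T ^ k • x := by
      rw [smul_smul, ← _root_.zpow_add, add_comm, _root_.zpow_add, ← smul_smul, zpow_natCast,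
        T_pow_width_smul]
    exact Int.natCast_dvd_natCast.mp ((T_zpow_smul_eq_iff_width_dvd N _ _).mp h)
  · have h : ModularGroup.T ^ (width N (ModularGroup.T ^ k • x) : ℤ) • x = x := by
      have h1 := T_pow_width_smul N (ModularGroup.T ^ k • x)
      rw [← zpow_natCast, smul_smul, ← _root_.zpow_add, add_comm, _root_.zpow_add, ← smul_smul] at h1
      exact smul_left_cancel _ h1
    exact Int.natCast_dvd_natCast.mp ((T_zpow_smul_eq_iff_width_dvd N _ _).mp h)

end Fermat.Agent.ProgramR.CuspLocal
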