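import Mathlib
import Fermat.Agent.ProgramR.Defs
import Fermat.Agent.ProgramR.QExp.Laurent
import Fermat.Agent.ProgramR.LevelOne.JPoly
import Fermat.Agent.ProgramR.CuspLocal.Width

/-!
# Expansions of weakly holomorphic `Γ₀(N)`-invariant functions at the cusps (Program R, C)

For `h ∈ WH0 Γ₀(N)` and `g ∈ SL(2,ℤ)` the function `z ↦ h (g⁻¹ • z)` is holomorphic, `N`-periodic
and meromorphic at `i∞`; its Laurent expansion in `q_N = exp(2πiz/N)` defines an injective ring
homomorphism `cuspExp N g : WH0 Γ₀(N) →+* ℂ((q_N))` which only depends on the left coset `g Γ₀(N)`.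
-/

set_option autoImplicit false

noncomputable section

open Complex Filter Function
open UpperHalfPlane hiding I
open Matrix Matrix.SpecialLinearGroup CongruenceSubgroup
open scoped Real Topology Manifold MatrixGroups ModularGroup

namespace Fermat.Agent.ProgramR.CuspLocal

local notation "𝕢" => Periodic.qParam

/-- The translate `z ↦ h (g⁻¹ • z)`. -/
def slTranslate (g : SL(2, ℤ)) (h : ℍ → ℂ) : ℍ → ℂ := fun z => h (g⁻¹ • z)

@[simp] lemma slTranslate_apply (g : SL(2, ℤ)) (h : ℍ → ℂ) (z : ℍ) :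
    slTranslate g h z = h (g⁻¹ • z) := rfl

lemma slTranslate_one (h : ℍ → ℂ) : slTranslate 1 h = h := by
  funext z; simp

lemma slTranslate_mul (g g' : SL(2, ℤ)) (h : ℍ → ℂ) :
    slTranslate (g * g') h = slTranslate g (slTranslate g' h) := by
  funext z; simp [mul_smul]

lemma slTranslate_add (g : SL(2, ℤ)) (h h' : ℍ → ℂ) :
    slTranslate g (h + h') = slTranslate g h + slTranslate g h' := rfl

lemma slTranslate_mul_fun (g : SL(2, ℤ)) (h h' : ℍ → ℂ) :
    slTranslate g (h * h') = slTranslate g h * slTranslate g h' := rfl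

lemma mdifferentiable_slTranslate (g : SL(2, ℤ)) {h : ℍ → ℂ} (hh : MDiff h) :
    MDiff (slTranslate g h) := by
  have hg : 0 < ((g⁻¹ : SL(2, ℤ)) : GL (Fin 2) ℝ).det.val := by simp
  exact hh.comp (mdifferentiable_smul hg)

variable {N : ℕ}

/-- Invariance of the translate under right multiplication by `Γ`. -/
lemma slTranslate_mul_right {Γ : Subgroup SL(2, ℤ)} {h : ℍ → ℂ} (H : IsWH0 Γ h)
    (g : SL(2, ℤ)) {γ : SL(2, ℤ)} (hγ : γ ∈ Γ) : slTranslate (g * γ) h = slTranslate g h := by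
  funext z
  rw [slTranslate_apply, slTranslate_apply, _root_.mul_inv_rev, mul_smul]
  exact H.smul_eq γ⁻¹ (Γ.inv_mem hγ) _

/-- The translate by `T^k g` is the translate by `g` shifted by `-k`. -/
lemma slTranslate_T_zpow_mul (g : SL(2, ℤ)) (k : ℤ) (h : ℍ → ℂ) (z : ℍ) :
    slTranslate (ModularGroup.T ^ k * g) h z = slTranslate g h ((-k : ℝ) +ᵥ z) := by
  rw [slTranslate_apply, slTranslate_apply, _root_.mul_inv_rev, mul_smul, ← _root_.zpow_neg,
    modular_T_zpow_smul]
  push_cast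
  rfl

/-- Periodicity of the translate: if `g⁻¹ T^w g ∈ Γ` then `h ∘ g⁻¹` is `w`-periodic. -/
lemma slTranslate_vadd {Γ : Subgroup SL(2, ℤ)} {h : ℍ → ℂ} (H : IsWH0 Γ h)
    (g : SL(2, ℤ)) {w : ℤ} (hw : g⁻¹ * (ModularGroup.T ^ w * g) ∈ Γ) (z : ℍ) :
    slTranslate g h ((w : ℝ) +ᵥ z) = slTranslate g h z := by
  have h1 : g⁻¹ • ((w : ℝ) +ᵥ z) = (g⁻¹ * (ModularGroup.T ^ w * g)) • (g⁻¹ • z) := by
    rw [← modular_T_zpow_smul, mul_smul, mul_smul, smul_inv_smul]
  rw [slTranslate_apply, h1, H.smul_eq _ hw]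
  rfl

lemma qParam_natCast_pow (w : ℕ) (hw : 0 < w) (z : ℂ) : 𝕢 (w : ℝ) z ^ w = 𝕢 1 z := by
  have hw' : (w : ℂ) ≠ 0 := by exact_mod_cast hw.ne'
  rw [Periodic.qParam, Periodic.qParam, ← Complex.exp_nat_mul]
  congr 1
  push_cast
  field_simp

/-- Translates of weakly holomorphic invariant functions are meromorphic at `i∞`, with respect to
any period `w > 0` such that `g⁻¹ T^w g ∈ Γ`. -/
lemma exists_isMeroAtInfty_slTranslate {Γ : Subgroup SL(2, ℤ)} {h : ℍ → ℂ} (H : IsWH0 Γ h)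
    (g : SL(2, ℤ)) {w : ℕ} (hw0 : 0 < w)
    (hw : g⁻¹ * (ModularGroup.T ^ (w : ℤ) * g) ∈ Γ) :
    ∃ m, QExp.IsMeroAtInfty (w : ℝ) m (slTranslate g h) := by
  obtain ⟨m, hm⟩ := H.exists_bdd
  refine ⟨m * w, mdifferentiable_slTranslate g H.mdiff, ?_, ?_⟩
  · apply QExp.periodic_comp_ofComplex_of_vadd
    intro τ
    have := slTranslate_vadd H g hw τ
    simpa using this
  · have h1 := (LevelOne.isBoundedAtImInfty_mul_discriminant_pow_iff
      (slTranslate g h) m).mp (hm g⁻¹)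
    have e : (QExp.qPow (w : ℝ) (m * w) * slTranslate g h) =
        fun z : ℍ => slTranslate g h z * 𝕢 1 z ^ m := by
      funext z
      rw [Pi.mul_apply, QExp.qPow_apply, mul_comm m w, pow_mul, qParam_natCast_pow w hw0, mul_comm]
    rw [e]
    exact h1

section CuspExp

variable (N : ℕ) [NeZero N]

lemma natCast_pos_real : (0 : ℝ) < (N : ℝ) := Nat.cast_pos.mpr (NeZero.pos N)

/-- Translation by `g⁻¹` as a ring homomorphism into the ring of `N`-periodic holomorphic
functions meromorphic at `i∞`. -/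
def translateHom (g : SL(2, ℤ)) :
    ↥(WH0 (Gamma0 N)) →+* ↥(QExp.merRing (N : ℝ) (natCast_pos_real N)) where
  toFun h := ⟨slTranslate g h.1,
    exists_isMeroAtInfty_slTranslate (mem_WH0.mp h.2) g (NeZero.pos N) (conj_T_zpow_N_mem N g)⟩
  map_one' := rfl
  map_mul' _ _ := rfl
  map_zero' := rfl
  map_add' _ _ := rfl

@[simp] lemma coe_translateHom (g : SL(2, ℤ)) (h : ↥(WH0 (Gamma0 N))) :
    ((translateHom N g h : ↥(QExp.merRing (N : ℝ) (natCast_pos_real N))) : ℍ → ℂ) =
      slTranslate g h.1 := rfl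

lemma translateHom_injective (g : SL(2, ℤ)) : Function.Injective (translateHom N g) := by
  intro h h' e
  apply Subtype.ext
  funext z
  have := congrFun (congrArg Subtype.val e) (g • z)
  simpa using this

/-- The expansion of `h ∈ WH0 Γ₀(N)` at the cusp `g⁻¹ ∞`, as a Laurent series in
`q_N = exp(2πiz/N)`. -/
def cuspExp (g : SL(2, ℤ)) : ↥(WH0 (Gamma0 N)) →+* LaurentSeries ℂ :=
  (QExp.laurentExpHom (N : ℝ) (natCast_pos_real N)).comp (translateHom N g)

lemma cuspExp_apply (g : SL(2, ℤ)) (h : ↥(WH0 (Gamma0 N))) :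
    cuspExp N g h = QExp.laurentExp (N : ℝ) (slTranslate g h.1) := rfl

lemma cuspExp_injective (g : SL(2, ℤ)) : Function.Injective (cuspExp N g) :=
  (QExp.laurentExpHom_injective (N : ℝ) (natCast_pos_real N)).comp (translateHom_injective N g)

/-- The expansion only depends on the left coset `g Γ₀(N)`. -/
lemma cuspExp_mul_right (g : SL(2, ℤ)) {γ : SL(2, ℤ)} (hγ : γ ∈ Gamma0 N) :
    cuspExp N (g * γ) = cuspExp N g := by
  ext1 h
  rw [cuspExp_apply, cuspExp_apply, slTranslate_mul_right (mem_WH0.mp h.2) g hγ]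

lemma cuspExp_eq_of_mk_eq {g g' : SL(2, ℤ)}
    (e : (QuotientGroup.mk g : SL(2, ℤ) ⧸ Gamma0 N) = QuotientGroup.mk g') :
    cuspExp N g = cuspExp N g' := by
  have h := QuotientGroup.eq.mp e
  have : g' = g * (g⁻¹ * g') := by group
  rw [this, cuspExp_mul_right N g h]

/-- Constants expand to constants. -/
lemma cuspExp_algebraMap (g : SL(2, ℤ)) (c : ℂ) :
    cuspExp N g (algebraMap ℂ ↥(WH0 (Gamma0 N)) c) = HahnSeries.C c := by
  rw [cuspExp_apply]
  have : slTranslate g (algebraMap ℂ ↥(WH0 (Gamma0 N)) c : ↥(WH0 (Gamma0 N))).1 = fun _ => c := by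
    funext z
    rfl
  rw [this, QExp.laurentExp_const (natCast_pos_real N)]

end CuspExp

end Fermat.Agent.ProgramR.CuspLocal
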