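import Mathlib

/-!
# Algebra of Laurent series (Program R, package C, chart at infinity)

Pure algebra over a field `K`: orders of Laurent series versus orders of power series, Laurent
series of nonnegative order are power series, and the order of a polynomial / rational function
evaluated at a Laurent series of negative order.
-/

set_option autoImplicit false

noncomputable section

open HahnSeries LaurentSeries Polynomial

namespace Fermat.Agent.ProgramR.CuspLocal

variable {K : Type*} [Field K]

lemma order_coe_powerSeries_nonneg (F : PowerSeries K) :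
    0 ≤ (ofPowerSeries ℤ K F).order := by
  by_cases hF : ofPowerSeries ℤ K F = 0
  · rw [hF, HahnSeries.order_zero]
  · have h := HahnSeries.coeff_order_eq_zero.not.mpr hF
    by_contra hlt
    push Not at hlt
    apply h
    obtain ⟨m, hm⟩ : ∃ m : ℤ, (ofPowerSeries ℤ K F).order = m := ⟨_, rfl⟩
    rw [hm] at hlt ⊢
    rw [ofPowerSeries_apply, embDomain_of_notMem_range]
    simp only [Nat.castOrderEmbedding_apply, Set.mem_range, not_exists]
    intro n hn
    omega

lemma order_coe_powerSeries {F : PowerSeries K} (hF : F ≠ 0) :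
    (ofPowerSeries ℤ K F).order = (F.order.toNat : ℤ) := by
  have hx : ofPowerSeries ℤ K F ≠ 0 := by
    intro h
    exact hF (ofPowerSeries_injective (by rw [h, map_zero]))
  apply le_antisymm
  · apply HahnSeries.order_le_of_coeff_ne_zero
    rw [ofPowerSeries_apply_coeff]
    exact PowerSeries.coeff_order hF
  · have h0 := order_coe_powerSeries_nonneg F
    obtain ⟨k, hk⟩ := Int.eq_ofNat_of_zero_le h0
    have h := HahnSeries.coeff_order_eq_zero.not.mpr hx
    rw [hk, ofPowerSeries_apply_coeff] at h
    have h1 : F.order ≤ k := PowerSeries.order_le k h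
    rw [hk]
    have h2 : F.order.toNat ≤ k := by
      have hne : F.order ≠ ⊤ := by rwa [Ne, PowerSeries.order_eq_top]
      exact (ENat.toNat_le_toNat h1 (ENat.natCast_ne_top k)).trans_eq (ENat.toNat_natCast k)
    exact_mod_cast h2

lemma exists_powerSeries_of_order_nonneg {x : LaurentSeries K} (h : 0 ≤ x.order) :
    ∃ F : PowerSeries K, ofPowerSeries ℤ K F = x := by
  obtain ⟨n, hn⟩ := Int.eq_ofNat_of_zero_le h
  exact ⟨_, LaurentSeries.X_order_mul_powerSeriesPart hn.symm⟩

lemma order_inv_laurent (x : LaurentSeries K) : x⁻¹.order = -x.order := by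
  by_cases hx : x = 0
  · rw [hx, inv_zero, HahnSeries.order_zero, neg_zero]
  · have h := HahnSeries.order_mul hx (inv_ne_zero hx)
    rw [mul_inv_cancel₀ hx, HahnSeries.order_one] at h
    omega

lemma order_div_laurent {x y : LaurentSeries K} (hx : x ≠ 0) (hy : y ≠ 0) :
    (x / y).order = x.order - y.order := by
  rw [div_eq_mul_inv, HahnSeries.order_mul hx (inv_ne_zero hy), order_inv_laurent]
  ring

lemma ne_zero_of_order_ne_zero {x : LaurentSeries K} (hx : x.order ≠ 0) : x ≠ 0 := by
  rintro rfl
  exact hx HahnSeries.order_zero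

/-- A power series whose image has positive order has vanishing constant coefficient. -/
lemma constantCoeff_eq_zero_of_order_pos {F : PowerSeries K}
    (h : 0 < (ofPowerSeries ℤ K F).order) : PowerSeries.constantCoeff F = 0 := by
  have := HahnSeries.coeff_eq_zero_of_lt_order h
  rwa [← Nat.cast_zero, ofPowerSeries_apply_coeff, PowerSeries.coeff_zero_eq_constantCoeff] at this

/-- A power series with nonzero constant coefficient has image of order zero. -/
lemma order_coe_eq_zero_of_constantCoeff_ne_zero {F : PowerSeries K}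
    (h : PowerSeries.constantCoeff F ≠ 0) : (ofPowerSeries ℤ K F).order = 0 := by
  apply le_antisymm _ (order_coe_powerSeries_nonneg F)
  apply HahnSeries.order_le_of_coeff_ne_zero
  rwa [← Nat.cast_zero, ofPowerSeries_apply_coeff, PowerSeries.coeff_zero_eq_constantCoeff]

/-- The order of a polynomial evaluated at a Laurent series of negative order. -/
theorem order_eval₂_of_order_neg {x : LaurentSeries K} (hx : x.order < 0) {p : K[X]}
    (hp : p ≠ 0) : (p.eval₂ HahnSeries.C x).order = p.natDegree * x.order := by
  have hx0 : x ≠ 0 := ne_zero_of_order_ne_zero hx.ne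
  let _ : Invertible x := invertibleOfNonzero hx0
  have hinv : ⅟x = x⁻¹ := invOf_eq_inv x
  have hpos : 0 ≤ (x⁻¹).order := by rw [order_inv_laurent]; omega
  obtain ⟨U, hU⟩ := exists_powerSeries_of_order_nonneg hpos
  have hU0 : PowerSeries.constantCoeff U = 0 := by
    apply constantCoeff_eq_zero_of_order_pos
    rw [hU, order_inv_laurent]; omega
  have h1 := Polynomial.eval₂_reverse_mul_pow (HahnSeries.C : K →+* LaurentSeries K) x p
  rw [hinv, ← hU] at h1
  have hC : (HahnSeries.C : K →+* LaurentSeries K) =
      (ofPowerSeries ℤ K).comp (PowerSeries.C : K →+* PowerSeries K) := by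
    ext r : 1
    simp
  have h2 : Polynomial.eval₂ (HahnSeries.C : K →+* LaurentSeries K) (ofPowerSeries ℤ K U)
      p.reverse = ofPowerSeries ℤ K (Polynomial.eval₂ (PowerSeries.C : K →+* PowerSeries K) U
        p.reverse) := by
    rw [hC, Polynomial.hom_eval₂]
  have h3 : PowerSeries.constantCoeff
      (Polynomial.eval₂ (PowerSeries.C : K →+* PowerSeries K) U p.reverse) = p.leadingCoeff := by
    rw [Polynomial.hom_eval₂, hU0]
    have : (PowerSeries.constantCoeff (R := K)).comp (PowerSeries.C : K →+* PowerSeries K) =
        RingHom.id K := by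
      ext r; simp
    rw [this, Polynomial.eval₂_at_zero, RingHom.id_apply, Polynomial.coeff_zero_reverse]
  have h4 : (ofPowerSeries ℤ K (Polynomial.eval₂ (PowerSeries.C : K →+* PowerSeries K) U
      p.reverse)).order = 0 := by
    apply order_coe_eq_zero_of_constantCoeff_ne_zero
    rw [h3]
    exact Polynomial.leadingCoeff_ne_zero.mpr hp
  have h5 : ofPowerSeries ℤ K (Polynomial.eval₂ (PowerSeries.C : K →+* PowerSeries K) U
      p.reverse) ≠ 0 := by
    intro h0
    have h6 := ofPowerSeries_injective (h0.trans (map_zero _).symm)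
    rw [h6, map_zero] at h3
    exact Polynomial.leadingCoeff_ne_zero.mpr hp h3.symm
  rw [← h1, h2, HahnSeries.order_mul h5 (pow_ne_zero _ hx0), h4,
    HahnSeries.order_pow, zero_add, nsmul_eq_mul]

/-- A ring hom `K(X) → K((q))` fixing constants is evaluation on polynomials. -/
lemma map_algebraMap_polynomial (ρ : RatFunc K →+* LaurentSeries K)
    (hC : ∀ c, ρ (RatFunc.C c) = HahnSeries.C c) (p : K[X]) :
    ρ (algebraMap K[X] (RatFunc K) p) = p.eval₂ HahnSeries.C (ρ RatFunc.X) := by
  have h : ρ.comp (algebraMap K[X] (RatFunc K)) =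
      Polynomial.eval₂RingHom (HahnSeries.C : K →+* LaurentSeries K) (ρ RatFunc.X) := by
    apply Polynomial.ringHom_ext
    · intro c
      simp only [RingHom.comp_apply, Polynomial.coe_eval₂RingHom, Polynomial.eval₂_C]
      rw [← hC c, RatFunc.algebraMap_C]
    · simp only [RingHom.comp_apply, Polynomial.coe_eval₂RingHom, Polynomial.eval₂_X,
        RatFunc.algebraMap_X]
  exact congrArg (fun f => f p) h

/-- The order of the image of a rational function under a ring hom `K(X) → K((q))` fixing
constants and sending `X` to a series of negative order. -/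
theorem order_map_ratFunc (ρ : RatFunc K →+* LaurentSeries K)
    (hC : ∀ c, ρ (RatFunc.C c) = HahnSeries.C c) (hx : (ρ RatFunc.X).order < 0)
    {r : RatFunc K} (hr : r ≠ 0) : (ρ r).order = r.intDegree * (ρ RatFunc.X).order := by
  have hnum : r.num ≠ 0 := RatFunc.num_ne_zero hr
  have hden : r.denom ≠ 0 := RatFunc.denom_ne_zero r
  have h1 := order_eval₂_of_order_neg hx hnum
  have h2 := order_eval₂_of_order_neg hx hden
  have hρ : Function.Injective ρ := ρ.injective
  have hn0 : ρ (algebraMap K[X] (RatFunc K) r.num) ≠ 0 := by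
    rw [Ne, map_eq_zero_iff ρ hρ, map_eq_zero_iff _ (RatFunc.algebraMap_injective K)]
    exact hnum
  have hd0 : ρ (algebraMap K[X] (RatFunc K) r.denom) ≠ 0 := by
    rw [Ne, map_eq_zero_iff ρ hρ, map_eq_zero_iff _ (RatFunc.algebraMap_injective K)]
    exact hden
  conv_lhs => rw [← RatFunc.num_div_denom r]
  rw [map_div₀, order_div_laurent hn0 hd0, map_algebraMap_polynomial ρ hC,
    map_algebraMap_polynomial ρ hC, h1, h2, RatFunc.intDegree]
  ring

end Fermat.Agent.ProgramR.CuspLocal
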