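import Mathlib
import Fermat.Agent.ProgramR.CuspLocal.LaurentAlg
import Fermat.Agent.ProgramR.Alg.Setup
import Fermat.Agent.ProgramR.Analytic.PlacesCore

/-!
# The chart at infinity from a family of Laurent expansions (Program R, generic field)

`k` a field of characteristic zero, `B` a Dedekind domain, finite and torsion-free over `k[X]`
(set-up of `Alg/Setup.lean`).  A `LaurentFamily k B ι` is a family of injective ring homs
`e i : B → k((q))`, pairwise distinct, fixing the constants and sending `X` to one and the same
series `J` of negative order.  From it we build the `CenterData` (of `Analytic/PlacesCore.lean`) on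
`(Ainf k, Binf k B, k[[q]], ι)`:

* `LaurentFamily.expFF i : FF k B →+* k((q))`, the extension of `e i`;
* `LaurentFamily.ratExp : RatFunc k →+* k((q))` (`X ↦ J`), of order `intDegree * J.order`;
* `LaurentFamily.phi : Ainf k →+* k[[q]]`, `LaurentFamily.sigma i : Binf k B →+* k[[q]]`;
* `LaurentFamily.centerData`, with base the maximal ideal of `Ainf k`, `X⁻¹ ∈ base \ base²`,
  `w (φ X⁻¹) = -J.order`.
-/

set_option autoImplicit false
set_option linter.unusedSectionVars false
set_option linter.style.haveILetI false

noncomputable section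

open Polynomial Module HahnSeries
open Fermat.Agent.ProgramR.RR Fermat.Agent.ProgramR.Alg

namespace Fermat.Agent.ProgramR.CuspLocal

/-- Lift a ring hom into Laurent series with values in power series to a ring hom into power
series. -/
def liftPowerSeries {k A : Type*} [Field k] [CommRing A] (f : A →+* LaurentSeries k)
    (hf : ∀ a, ∃ F : PowerSeries k, ofPowerSeries ℤ k F = f a) : A →+* PowerSeries k where
  toFun a := (hf a).choose
  map_one' := ofPowerSeries_injective (by rw [(hf 1).choose_spec, map_one, map_one])
  map_mul' a b := ofPowerSeries_injective (by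
    rw [(hf (a * b)).choose_spec, map_mul, map_mul, (hf a).choose_spec, (hf b).choose_spec])
  map_zero' := ofPowerSeries_injective (by rw [(hf 0).choose_spec, map_zero, map_zero])
  map_add' a b := ofPowerSeries_injective (by
    rw [(hf (a + b)).choose_spec, map_add, map_add, (hf a).choose_spec, (hf b).choose_spec])

lemma coe_liftPowerSeries {k A : Type*} [Field k] [CommRing A] (f : A →+* LaurentSeries k)
    (hf : ∀ a, ∃ F : PowerSeries k, ofPowerSeries ℤ k F = f a) (a : A) :
    ofPowerSeries ℤ k (liftPowerSeries f hf a) = f a := (hf a).choose_spec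

/-- Over an algebraically closed field, a maximal ideal with residue field the constants has only
primes of inertia degree one above it. -/
lemma inertiaDeg_eq_one_of_isAlgClosed {k R S : Type*} [Field k] [IsAlgClosed k] [CommRing R]
    [CommRing S] [Algebra k R] [Algebra R S] [Module.Finite R S] (p : Ideal R) [p.IsMaximal]
    (P : Ideal S) [P.IsMaximal] [P.LiesOver p]
    (hsurj : Function.Surjective (algebraMap k (R ⧸ p))) : P.inertiaDeg R = 1 := by
  rw [Ideal.inertiaDeg_eq_of_isMaximal p P]
  letI : Field (R ⧸ p) := Ideal.Quotient.field p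
  letI : Field (S ⧸ P) := Ideal.Quotient.field P
  letI : Algebra k (S ⧸ P) :=
    ((algebraMap (R ⧸ p) (S ⧸ P)).comp (algebraMap k (R ⧸ p))).toAlgebra
  haveI : IsScalarTower k (R ⧸ p) (S ⧸ P) := IsScalarTower.of_algebraMap_eq fun _ => rfl
  haveI : Module.Finite k (R ⧸ p) :=
    Module.Finite.of_surjective (Algebra.linearMap k (R ⧸ p)) hsurj
  haveI : Module.Finite (R ⧸ p) (S ⧸ P) := inferInstance
  haveI : Module.Finite k (S ⧸ P) := Module.Finite.trans (R ⧸ p) (S ⧸ P)
  have hb := IsAlgClosed.algebraMap_bijective_of_isIntegral (k := k) (K := S ⧸ P)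
  have hb' : Function.Bijective (algebraMap (R ⧸ p) (S ⧸ P)) := by
    refine ⟨(algebraMap (R ⧸ p) (S ⧸ P)).injective, fun y => ?_⟩
    obtain ⟨c, hc⟩ := hb.2 y
    exact ⟨algebraMap k (R ⧸ p) c, hc⟩
  have e := LinearEquiv.ofBijective (Algebra.linearMap (R ⧸ p) (S ⧸ P)) hb'
  rw [← e.finrank_eq, Module.finrank_self]

/-- A family of Laurent expansions of a `k[X]`-algebra `B`. -/
structure LaurentFamily (k : Type*) [Field k] (B : Type*) [CommRing B] [Algebra k B]
    [Algebra k[X] B] (ι : Type*) where
  /-- the expansions -/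
  e : ι → B →+* LaurentSeries k
  e_inj : ∀ i, Function.Injective (e i)
  e_C : ∀ i c, e i (algebraMap k B c) = HahnSeries.C c
  /-- the common expansion of `X` -/
  J : LaurentSeries k
  e_X : ∀ i, e i (algebraMap k[X] B X) = J
  J_order : J.order < 0
  sep : Function.Injective e

namespace LaurentFamily

variable {k : Type*} [Field k] {B : Type*} [CommRing B] [IsDedekindDomain B] [Algebra k B]
  [Algebra k[X] B] [IsScalarTower k k[X] B] [Module.Finite k[X] B] [IsTorsionFree k[X] B]
  {ι : Type*} (E : LaurentFamily k B ι)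

/-- the pole order of `X` in the expansions, as a natural number. -/
def poleOrder : ℕ := (-E.J.order).toNat

lemma poleOrder_spec : (E.poleOrder : ℤ) = -E.J.order := by
  have := E.J_order
  unfold poleOrder
  omega

lemma poleOrder_pos : 0 < E.poleOrder := by
  have := E.J_order
  have := E.poleOrder_spec
  omega

lemma e_polynomial (i : ι) (p : k[X]) :
    E.e i (algebraMap k[X] B p) = p.eval₂ HahnSeries.C E.J := by
  have h : (E.e i).comp (algebraMap k[X] B) =
      Polynomial.eval₂RingHom (HahnSeries.C : k →+* LaurentSeries k) E.J := by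
    apply Polynomial.ringHom_ext
    · intro c
      simp only [RingHom.comp_apply, Polynomial.coe_eval₂RingHom, Polynomial.eval₂_C]
      rw [← E.e_C i c, IsScalarTower.algebraMap_apply k k[X] B]
      rfl
    · simp only [RingHom.comp_apply, Polynomial.coe_eval₂RingHom, Polynomial.eval₂_X, E.e_X]
  exact congrArg (fun f => f p) h

/-- extension of the expansion `e i` to the fraction field. -/
def expFF (i : ι) : FF k B →+* LaurentSeries k := IsFractionRing.lift (E.e_inj i)

@[simp] lemma expFF_algebraMap (i : ι) (b : B) : E.expFF i (algebraMap B (FF k B) b) = E.e i b :=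
  IsFractionRing.lift_algebraMap (E.e_inj i) b

lemma expFF_injective (i : ι) : Function.Injective (E.expFF i) := (E.expFF i).injective

lemma expFF_polynomial (i : ι) (p : k[X]) :
    E.expFF i (algebraMap k[X] (FF k B) p) = p.eval₂ HahnSeries.C E.J := by
  rw [IsScalarTower.algebraMap_apply k[X] B (FF k B), expFF_algebraMap, e_polynomial]

/-- the expansion of rational functions: `X ↦ J`. -/
def ratExp [Nonempty ι] : RatFunc k →+* LaurentSeries k :=
  (E.expFF (Classical.arbitrary ι)).comp (algebraMap (RatFunc k) (FF k B))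

lemma expFF_ratFunc [Nonempty ι] (i : ι) (r : RatFunc k) :
    E.expFF i (algebraMap (RatFunc k) (FF k B) r) = E.ratExp r := by
  have h : (E.expFF i).comp (algebraMap (RatFunc k) (FF k B)) = E.ratExp := by
    apply IsLocalization.ringHom_ext (nonZeroDivisors k[X])
    refine RingHom.ext fun p => ?_
    simp only [RingHom.comp_apply, ratExp]
    rw [← IsScalarTower.algebraMap_apply k[X] (RatFunc k) (FF k B), expFF_polynomial,
      expFF_polynomial]
  exact congrArg (fun f => f r) h

variable [Nonempty ι]

lemma ratExp_polynomial (p : k[X]) :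
    E.ratExp (algebraMap k[X] (RatFunc k) p) = p.eval₂ HahnSeries.C E.J := by
  rw [← E.expFF_ratFunc (Classical.arbitrary ι),
    ← IsScalarTower.algebraMap_apply k[X] (RatFunc k) (FF k B), expFF_polynomial]

lemma ratExp_C (c : k) : E.ratExp (RatFunc.C c) = HahnSeries.C c := by
  rw [← RatFunc.algebraMap_C, ratExp_polynomial, Polynomial.eval₂_C]

lemma ratExp_X : E.ratExp RatFunc.X = E.J := by
  rw [← RatFunc.algebraMap_X, ratExp_polynomial, Polynomial.eval₂_X]

lemma order_ratExp {r : RatFunc k} (hr : r ≠ 0) :
    (E.ratExp r).order = r.intDegree * E.J.order := by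
  have h := order_map_ratFunc E.ratExp E.ratExp_C (by rw [ratExp_X]; exact E.J_order) hr
  rwa [ratExp_X] at h

lemma order_ratExp_nonneg {r : RatFunc k} (hr : r ∈ Ainf k) : 0 ≤ (E.ratExp r).order := by
  by_cases hr0 : r = 0
  · rw [hr0, map_zero, HahnSeries.order_zero]
  · rw [E.order_ratExp hr0]
    have h1 := (mem_Ainf_of_ne_zero hr0).mp hr
    have h2 := E.J_order
    nlinarith

/-- the expansion of the rational functions regular at infinity, with values in power series. -/
def phi : Ainf k →+* PowerSeries k :=
  liftPowerSeries (E.ratExp.comp (Ainf k).subtype) fun r =>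
    exists_powerSeries_of_order_nonneg (E.order_ratExp_nonneg r.2)

lemma coe_phi (r : Ainf k) : ofPowerSeries ℤ k (E.phi r) = E.ratExp (r : RatFunc k) :=
  coe_liftPowerSeries _ _ r

lemma phi_injective : Function.Injective E.phi := by
  intro a b hab
  have h := congrArg (ofPowerSeries ℤ k) hab
  rw [coe_phi, coe_phi] at h
  exact Subtype.ext (E.ratExp.injective h)

variable [CharZero k]

lemma expFF_algebraMap_Ainf (i : ι) (r : Ainf k) :
    E.expFF i (algebraMap (Ainf k) (FF k B) r) = ofPowerSeries ℤ k (E.phi r) := by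
  rw [IsScalarTower.algebraMap_apply (Ainf k) (RatFunc k) (FF k B), expFF_ratFunc, coe_phi]
  rfl

/-- elements integral over `Ainf` expand to power series. -/
lemma exists_powerSeries_expFF (i : ι) (s : Binf k B) :
    ∃ F : PowerSeries k, ofPowerSeries ℤ k F = E.expFF i (s : FF k B) := by
  obtain ⟨p, hp, hps⟩ := s.2
  have hint : IsIntegral (PowerSeries k) (E.expFF i (s : FF k B)) := by
    refine ⟨p.map E.phi, hp.map _, ?_⟩
    rw [Polynomial.eval₂_map]
    have h1 : (algebraMap (PowerSeries k) (LaurentSeries k)).comp E.phi =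
        (E.expFF i).comp (algebraMap (Ainf k) (FF k B)) := by
      refine RingHom.ext fun r => ?_
      simp only [RingHom.comp_apply, LaurentSeries.coe_algebraMap, expFF_algebraMap_Ainf]
    rw [h1, ← Polynomial.hom_eval₂, hps, map_zero]
  obtain ⟨F, hF⟩ := IsIntegrallyClosed.isIntegral_iff.mp hint
  exact ⟨F, by rw [← hF, LaurentSeries.coe_algebraMap]⟩

/-- the expansion `e i`, extended to the chart at infinity `Binf`, with values in power series. -/
def sigma (i : ι) : Binf k B →+* PowerSeries k :=
  liftPowerSeries ((E.expFF i).comp (algebraMap (Binf k B) (FF k B))) fun s =>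
    E.exists_powerSeries_expFF i s

lemma coe_sigma (i : ι) (s : Binf k B) :
    ofPowerSeries ℤ k (E.sigma i s) = E.expFF i (s : FF k B) :=
  coe_liftPowerSeries _ _ s

lemma sigma_algebraMap (i : ι) (r : Ainf k) :
    E.sigma i (algebraMap (Ainf k) (Binf k B) r) = E.phi r := by
  apply ofPowerSeries_injective (Γ := ℤ)
  rw [coe_sigma, ← expFF_algebraMap_Ainf E i]
  rfl

lemma sigma_injective : Function.Injective E.sigma := by
  intro i j hij
  apply E.sep
  have h1 : E.expFF i = E.expFF j := by
    apply IsLocalization.ringHom_ext (nonZeroDivisors (Binf k B))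
    refine RingHom.ext fun s => ?_
    simp only [RingHom.comp_apply]
    have := congrArg (fun f => ofPowerSeries ℤ k (f s)) hij
    simp only [coe_sigma] at this
    exact this
  refine RingHom.ext fun b => ?_
  rw [← expFF_algebraMap, ← expFF_algebraMap, h1]

/-- the `CenterData` of the chart at infinity. -/
def centerData : CenterData (Ainf k) (Binf k B) (PowerSeries k) ι where
  φ := E.phi
  φ_inj := E.phi_injective
  σ := E.sigma
  σ_inj := E.sigma_injective
  σ_φ := E.sigma_algebraMap
  w := PowerSeries.order
  w_mul := PowerSeries.order_mul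
  w_top _ := PowerSeries.order_eq_top
  𝔮 := Ideal.span {PowerSeries.X}
  𝔮_prime := PowerSeries.span_X_isPrime
  mem_𝔮 x := by
    rw [Ideal.mem_span_singleton, PowerSeries.X_dvd_iff,
      PowerSeries.order_ne_zero_iff_constCoeff_eq_zero]

@[simp] lemma centerData_φ : E.centerData.φ = E.phi := rfl
@[simp] lemma centerData_σ (i : ι) : E.centerData.σ i = E.sigma i := rfl
@[simp] lemma centerData_w (F : PowerSeries k) : E.centerData.w F = F.order := rfl

/-- orders of power series versus orders of their Laurent series. -/
lemma toNat_order_eq (F : PowerSeries k) :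
    ((F.order.toNat : ℕ) : ℤ) = (ofPowerSeries ℤ k F).order := by
  by_cases hF : F = 0
  · subst hF
    simp
  · rw [order_coe_powerSeries hF]

lemma order_eq_coe_toNat {F : PowerSeries k} (hF : F ≠ 0) :
    F.order = ((F.order.toNat : ℕ) : ℕ∞) := by
  rw [ENat.natCast_toNat]
  rwa [Ne, PowerSeries.order_eq_top]

lemma toNat_order_sigma (i : ι) (s : Binf k B) :
    (((E.sigma i s).order.toNat : ℕ) : ℤ) = (E.expFF i (s : FF k B)).order := by
  rw [toNat_order_eq, coe_sigma]

lemma toNat_order_phi (r : Ainf k) :
    (((E.phi r).order.toNat : ℕ) : ℤ) = (E.ratExp (r : RatFunc k)).order := by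
  rw [toNat_order_eq, coe_phi]

lemma sigma_ne_zero (i : ι) {s : Binf k B} (hs : s ≠ 0) : E.sigma i s ≠ 0 := by
  intro h
  have h1 := congrArg (ofPowerSeries ℤ k) h
  rw [coe_sigma, map_zero] at h1
  exact hs (Subtype.ext ((map_eq_zero_iff _ (E.expFF_injective i)).mp h1))

lemma phi_ne_zero {r : Ainf k} (hr : r ≠ 0) : E.phi r ≠ 0 := fun h =>
  hr (E.phi_injective (h.trans (map_zero _).symm))

/-- the order of `φ X⁻¹` is the pole order of `J`. -/
lemma order_phi_XinvAinf : (E.phi XinvAinf).order = E.poleOrder := by
  rw [order_eq_coe_toNat (E.phi_ne_zero XinvAinf_ne_zero)]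
  congr 1
  have h := E.toNat_order_phi XinvAinf
  have h2 : ((XinvAinf : Ainf k) : RatFunc k) = (RatFunc.X : RatFunc k)⁻¹ := rfl
  rw [h2, E.order_ratExp (inv_ne_zero RatFunc.X_ne_zero), RatFunc.intDegree_inv,
    RatFunc.intDegree_X] at h
  have h3 := E.poleOrder_spec
  omega

lemma mem_base_iff (r : Ainf k) : r ∈ E.centerData.base ↔ (E.phi r).order ≠ 0 := by
  rw [CenterData.base, Ideal.mem_comap, E.centerData.mem_𝔮]
  rfl

lemma mem_center_iff (i : ι) (s : Binf k B) :
    s ∈ E.centerData.center i ↔ (E.sigma i s).order ≠ 0 := by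
  rw [CenterData.center, Ideal.mem_comap, E.centerData.mem_𝔮]
  rfl

lemma XinvAinf_mem_base : (XinvAinf : Ainf k) ∈ E.centerData.base := by
  rw [mem_base_iff, order_phi_XinvAinf]
  exact_mod_cast E.poleOrder_pos.ne'

lemma base_ne_bot : E.centerData.base ≠ ⊥ := by
  intro h
  have := E.XinvAinf_mem_base
  rw [h, Ideal.mem_bot] at this
  exact XinvAinf_ne_zero this

lemma base_eq_maximalIdeal : E.centerData.base = IsLocalRing.maximalIdeal (Ainf k) :=
  IsLocalRing.eq_maximalIdeal (E.centerData.base_isMaximal E.base_ne_bot)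

lemma XinvAinf_notMem_base_sq : (XinvAinf : Ainf k) ∉ E.centerData.base ^ 2 := by
  rw [base_eq_maximalIdeal, maximalIdeal_Ainf_eq, Ideal.span_singleton_pow,
    Ideal.mem_span_singleton]
  rintro ⟨c, hc⟩
  apply not_isUnit_XinvAinf (k := k)
  have h1 : (XinvAinf : Ainf k) * 1 = XinvAinf * (XinvAinf * c) := by
    rw [mul_one, ← mul_assoc, ← pow_two]
    exact hc
  have h2 := mul_left_cancel₀ XinvAinf_ne_zero h1
  exact IsUnit.of_mul_eq_one c h2.symm

/-! ### Orders on the fraction field in terms of `B` -/

lemma order_expFF_div (i : ι) {a b : B} (ha : a ≠ 0) (hb : b ≠ 0) :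
    (E.expFF i (algebraMap B (FF k B) a / algebraMap B (FF k B) b)).order =
      (E.e i a).order - (E.e i b).order := by
  rw [map_div₀, expFF_algebraMap, expFF_algebraMap, order_div_laurent]
  · exact fun h => ha ((map_eq_zero_iff _ (E.e_inj i)).mp h)
  · exact fun h => hb ((map_eq_zero_iff _ (E.e_inj i)).mp h)

/-- If two expansions have the same orders on `B` they have the same orders on `FF k B`. -/
lemma order_expFF_eq_of_forall {i j : ι} (h : ∀ b : B, (E.e i b).order = (E.e j b).order)
    (f : FF k B) : (E.expFF i f).order = (E.expFF j f).order := by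
  obtain ⟨a, b, hb, rfl⟩ := IsFractionRing.div_surjective (A := B) f
  have hb0 : b ≠ 0 := nonZeroDivisors.ne_zero hb
  by_cases ha : a = 0
  · subst ha
    simp
  · rw [order_expFF_div E i ha hb0, order_expFF_div E j ha hb0, h a, h b]

/-- If the expansions `e i b` are supported on multiples of `d`, all orders on the fraction field
are multiples of `d`. -/
lemma dvd_order_expFF_of_forall (i : ι) (d : ℤ)
    (h : ∀ (b : B) (n : ℤ), ¬ d ∣ n → (E.e i b).coeff n = 0) (f : FF k B) :
    d ∣ (E.expFF i f).order := by
  have key : ∀ b : B, b ≠ 0 → d ∣ (E.e i b).order := by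
    intro b hb
    by_contra hnd
    have h1 := h b _ hnd
    rw [HahnSeries.coeff_order_eq_zero] at h1
    exact hb ((map_eq_zero_iff _ (E.e_inj i)).mp h1)
  obtain ⟨a, b, hb, rfl⟩ := IsFractionRing.div_surjective (A := B) f
  have hb0 : b ≠ 0 := nonZeroDivisors.ne_zero hb
  by_cases ha : a = 0
  · subst ha
    simp
  · rw [order_expFF_div E i ha hb0]
    exact dvd_sub (key a ha) (key b hb0)

lemma mem_center_iff' (i : ι) (s : Binf k B) :
    s ∈ E.centerData.center i ↔ s = 0 ∨ (E.expFF i (s : FF k B)).order ≠ 0 := by
  rw [mem_center_iff]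
  by_cases hs : s = 0
  · subst hs
    simp
  · have h1 := E.toNat_order_sigma i s
    have h2 := order_eq_coe_toNat (E.sigma_ne_zero i hs)
    constructor
    · intro h
      right
      intro h0
      rw [h0] at h1
      apply h
      rw [h2]
      exact_mod_cast h1
    · rintro (h | h)
      · exact absurd h hs
      · intro h0
        rw [h0] at h1
        simp at h1
        exact h h1.symm

/-- Expansions with the same orders on `B` have the same centre. -/
lemma center_eq_of_forall {i j : ι} (h : ∀ b : B, (E.e i b).order = (E.e j b).order) :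
    E.centerData.center i = E.centerData.center j := by
  ext s
  rw [mem_center_iff', mem_center_iff', E.order_expFF_eq_of_forall h]

/-- The order of `σ i s` as a natural number, for `s ≠ 0`. -/
lemma w_sigma_eq (i : ι) {s : Binf k B} (hs : s ≠ 0) :
    E.centerData.w (E.centerData.σ i s) = ((E.expFF i (s : FF k B)).order.toNat : ℕ) := by
  rw [centerData_σ, centerData_w, order_eq_coe_toNat (E.sigma_ne_zero i hs)]
  congr 1
  have := E.toNat_order_sigma i s
  omega

lemma order_expFF_nonneg (i : ι) (s : Binf k B) : 0 ≤ (E.expFF i (s : FF k B)).order := by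
  rw [← E.toNat_order_sigma i s]
  exact Int.natCast_nonneg _

/-- `w (φ X⁻¹) = poleOrder`. -/
lemma w_phi_XinvAinf : E.centerData.w (E.centerData.φ XinvAinf) = E.poleOrder :=
  E.order_phi_XinvAinf

/-! ### Residue degree one and the rank -/

lemma phi_algebraMap (c : k) : E.phi (algebraMap k (Ainf k) c) = PowerSeries.C c := by
  apply ofPowerSeries_injective (Γ := ℤ)
  rw [coe_phi, PowerSeries.coe_C, ← E.ratExp_C c]
  rfl

lemma algebraMap_quotient_base_surjective :
    Function.Surjective (algebraMap k (Ainf k ⧸ E.centerData.base)) := by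
  intro y
  obtain ⟨r, rfl⟩ := Ideal.Quotient.mk_surjective y
  refine ⟨PowerSeries.constantCoeff (E.phi r), ?_⟩
  rw [IsScalarTower.algebraMap_apply k (Ainf k) (Ainf k ⧸ E.centerData.base),
    Ideal.Quotient.algebraMap_eq, Ideal.Quotient.eq, mem_base_iff, map_sub, phi_algebraMap,
    PowerSeries.order_ne_zero_iff_constCoeff_eq_zero, map_sub, PowerSeries.constantCoeff_C,
    sub_self]

/-- Over an algebraically closed field, all primes of `Binf` over the base have inertia degree
one. -/
theorem inertiaDeg_eq_one [IsAlgClosed k] (P : Ideal (Binf k B)) [P.IsPrime]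
    (hP : P.comap (algebraMap (Ainf k) (Binf k B)) = E.centerData.base) :
    P.inertiaDeg (Ainf k) = 1 := by
  haveI := E.centerData.base_isMaximal E.base_ne_bot
  haveI : P.LiesOver E.centerData.base := ⟨hP.symm⟩
  have hP0 : P ≠ ⊥ := by
    rintro rfl
    apply E.base_ne_bot
    rw [← hP]
    exact Ideal.comap_bot_of_injective _ (FaithfulSMul.algebraMap_injective (Ainf k) (Binf k B))
  haveI : P.IsMaximal := Ideal.IsPrime.isMaximal inferInstance hP0
  exact inertiaDeg_eq_one_of_isAlgClosed E.centerData.base P E.algebraMap_quotient_base_surjective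

end LaurentFamily

/-- the rank of the chart at infinity over `Ainf` is the rank of `B` over `k[X]`. -/
lemma finrank_Ainf_Binf (k : Type*) [Field k] (B : Type*) [CommRing B] [IsDedekindDomain B]
    [Algebra k B] [Algebra k[X] B] [IsScalarTower k k[X] B] [Module.Finite k[X] B]
    [IsTorsionFree k[X] B] [CharZero k] : finrank (Ainf k) (Binf k B) = finrank k[X] B := by
  rw [← finrank_FF k B]
  exact (IsFractionRing.finrank_eq (Ainf k) (RatFunc k) (Binf k B) (FF k B)).symm

end Fermat.Agent.ProgramR.CuspLocal
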