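import Mathlib
import Fermat.Agent.ProgramR.CuspLocal.LaurentAlg
import Fermat.Agent.ProgramR.CuspLocal.InftyChart
import Fermat.Agent.ProgramR.Analytic.PlacesOrbit
import Fermat.Agent.ProgramR.Alg.OrdVal
import Fermat.Agent.ProgramR.RR.DiscInf

/-!
# The chart at infinity of a function field, from Laurent expansions over a bigger field

Field-level, two-coefficient-field version of `InftyChart.lean` / `InftyOrbit.lean`.

`k` a field of characteristic zero, `F` a finite extension of `RatFunc k`, `S` a Dedekind domain
with fraction field `F`, finite and torsion-free over `Ainf k` (the chart at infinity, e.g.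
`integralClosure (Ainf k) F`).  A `FieldFamily k k' F ι` is a family of ring homs
`e i : F → k'((q))`, pairwise distinct, restricting on `RatFunc k` to one and the same `ρ` with
`ρ (C c) = C (ε c)` for a field hom `ε : k → k'` and `ρ X` of negative order.

For `k` algebraically closed and a group `G` acting on `ι` with the orders `ord (e i f)` constant
along orbits, `|G i| ∣ M := -ord (ρ X)` and `(M / |G i|) ∣ ord (e i f)`:

* `FieldFamily.card_heightOneSpectrum`: `#Spec S = #(G-orbits)`;
* `FieldFamily.ramificationIdx_center`, `FieldFamily.center_eq_iff`, `FieldFamily.exists_center_eq`;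
* `FieldFamily.order_e_eq_mul_ordV`: `ord (e i f) = (M / |G i|) * ordV P f`.
-/

set_option autoImplicit false
set_option linter.unusedSectionVars false
set_option linter.style.haveILetI false

noncomputable section

open Polynomial Module HahnSeries IsDedekindDomain
open Fermat.Agent.ProgramR.RR Fermat.Agent.ProgramR.Alg

namespace Fermat.Agent.ProgramR.CuspLocal

/-- The order of the image of a rational function under a ring hom `k(X) → k'((q))` which is
`ε : k → k'` on constants and sends `X` to a series of negative order. -/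
theorem order_map_ratFunc_of_ringHom {k k' : Type*} [Field k] [Field k'] (ε : k →+* k')
    (ρ : RatFunc k →+* LaurentSeries k') (hC : ∀ c, ρ (RatFunc.C c) = HahnSeries.C (ε c))
    (hx : (ρ RatFunc.X).order < 0) {r : RatFunc k} (hr : r ≠ 0) :
    (ρ r).order = r.intDegree * (ρ RatFunc.X).order := by
  have hpoly : ∀ p : k[X], ρ (algebraMap k[X] (RatFunc k) p) =
      (p.map ε).eval₂ HahnSeries.C (ρ RatFunc.X) := by
    intro p
    have h : ρ.comp (algebraMap k[X] (RatFunc k)) =
        Polynomial.eval₂RingHom ((HahnSeries.C : k' →+* LaurentSeries k').comp ε)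
          (ρ RatFunc.X) := by
      apply Polynomial.ringHom_ext
      · intro c
        simp only [RingHom.comp_apply, Polynomial.coe_eval₂RingHom, Polynomial.eval₂_C]
        rw [← hC c, RatFunc.algebraMap_C]
      · simp only [RingHom.comp_apply, Polynomial.coe_eval₂RingHom, Polynomial.eval₂_X,
          RatFunc.algebraMap_X]
    rw [Polynomial.eval₂_map]
    exact congrArg (fun f => f p) h
  have hnum : r.num ≠ 0 := RatFunc.num_ne_zero hr
  have hden : r.denom ≠ 0 := RatFunc.denom_ne_zero r
  have hnum' : r.num.map ε ≠ 0 := (Polynomial.map_ne_zero_iff ε.injective).mpr hnum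
  have hden' : r.denom.map ε ≠ 0 := (Polynomial.map_ne_zero_iff ε.injective).mpr hden
  have h1 := order_eval₂_of_order_neg hx hnum'
  have h2 := order_eval₂_of_order_neg hx hden'
  rw [Polynomial.natDegree_map] at h1 h2
  have hρ : Function.Injective ρ := ρ.injective
  have hn0 : ρ (algebraMap k[X] (RatFunc k) r.num) ≠ 0 := by
    rw [Ne, map_eq_zero_iff ρ hρ, map_eq_zero_iff _ (RatFunc.algebraMap_injective k)]
    exact hnum
  have hd0 : ρ (algebraMap k[X] (RatFunc k) r.denom) ≠ 0 := by
    rw [Ne, map_eq_zero_iff ρ hρ, map_eq_zero_iff _ (RatFunc.algebraMap_injective k)]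
    exact hden
  conv_lhs => rw [← RatFunc.num_div_denom r]
  rw [map_div₀, order_div_laurent hn0 hd0, hpoly, hpoly, h1, h2, RatFunc.intDegree]
  ring

/-- orders of power series versus orders of their Laurent series. -/
lemma toNat_order_eq_order {K : Type*} [Field K] (P : PowerSeries K) :
    ((P.order.toNat : ℕ) : ℤ) = (ofPowerSeries ℤ K P).order := by
  by_cases hP : P = 0
  · subst hP
    simp
  · rw [order_coe_powerSeries hP]

lemma order_eq_natCast_toNat {K : Type*} [Field K] {P : PowerSeries K} (hP : P ≠ 0) :
    P.order = ((P.order.toNat : ℕ) : ℕ∞) := by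
  rw [ENat.natCast_toNat]
  rwa [Ne, PowerSeries.order_eq_top]

/-- A family of Laurent expansions (over `k'`) of a function field `F` over `k`. -/
structure FieldFamily (k : Type*) [Field k] (k' : Type*) [Field k'] (F : Type*) [Field F]
    [Algebra (RatFunc k) F] (ι : Type*) where
  /-- the embedding of the constant fields -/
  ε : k →+* k'
  /-- the expansions -/
  e : ι → F →+* LaurentSeries k'
  /-- the common expansion of the rational functions -/
  ρ : RatFunc k →+* LaurentSeries k'
  e_rat : ∀ i r, e i (algebraMap (RatFunc k) F r) = ρ r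
  ρ_C : ∀ c, ρ (RatFunc.C c) = HahnSeries.C (ε c)
  ρ_X : (ρ RatFunc.X).order < 0
  sep : Function.Injective e

namespace FieldFamily

variable {k : Type*} [Field k] {k' : Type*} [Field k'] {F : Type*} [Field F]
  [Algebra (RatFunc k) F] {ι : Type*} (E : FieldFamily k k' F ι)

/-- the pole order of `X` in the expansions, as a natural number. -/
def poleOrder : ℕ := (-(E.ρ RatFunc.X).order).toNat

lemma poleOrder_spec : (E.poleOrder : ℤ) = -(E.ρ RatFunc.X).order := by
  have := E.ρ_X
  unfold poleOrder
  omega

lemma poleOrder_pos : 0 < E.poleOrder := by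
  have := E.ρ_X
  have := E.poleOrder_spec
  omega

lemma order_ρ {r : RatFunc k} (hr : r ≠ 0) :
    (E.ρ r).order = r.intDegree * (E.ρ RatFunc.X).order :=
  order_map_ratFunc_of_ringHom E.ε E.ρ E.ρ_C E.ρ_X hr

lemma order_ρ_nonneg {r : RatFunc k} (hr : r ∈ Ainf k) : 0 ≤ (E.ρ r).order := by
  by_cases hr0 : r = 0
  · rw [hr0, map_zero, HahnSeries.order_zero]
  · rw [E.order_ρ hr0]
    have h1 := (mem_Ainf_of_ne_zero hr0).mp hr
    have h2 := E.ρ_X
    nlinarith

lemma e_injective (i : ι) : Function.Injective (E.e i) := (E.e i).injective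

/-- the expansion of the rational functions regular at infinity, with values in power series. -/
def phi : Ainf k →+* PowerSeries k' :=
  liftPowerSeries (E.ρ.comp (Ainf k).subtype) fun r =>
    exists_powerSeries_of_order_nonneg (E.order_ρ_nonneg r.2)

lemma coe_phi (r : Ainf k) : ofPowerSeries ℤ k' (E.phi r) = E.ρ (r : RatFunc k) :=
  coe_liftPowerSeries _ _ r

lemma phi_injective : Function.Injective E.phi := by
  intro a b hab
  have h := congrArg (ofPowerSeries ℤ k') hab
  rw [coe_phi, coe_phi] at h
  exact Subtype.ext (E.ρ.injective h)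

variable {S : Type*} [CommRing S] [IsDedekindDomain S] [Algebra (Ainf k) S]
  [Module.Finite (Ainf k) S] [IsTorsionFree (Ainf k) S] [Algebra S F] [IsFractionRing S F]
  [Algebra (Ainf k) F] [IsScalarTower (Ainf k) (RatFunc k) F] [IsScalarTower (Ainf k) S F]

lemma e_algebraMap_Ainf (i : ι) (r : Ainf k) :
    E.e i (algebraMap (Ainf k) F r) = ofPowerSeries ℤ k' (E.phi r) := by
  rw [IsScalarTower.algebraMap_apply (Ainf k) (RatFunc k) F, e_rat, coe_phi]
  rfl

/-- elements of the chart at infinity expand to power series. -/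
lemma exists_powerSeries_e (i : ι) (s : S) :
    ∃ P : PowerSeries k', ofPowerSeries ℤ k' P = E.e i (algebraMap S F s) := by
  obtain ⟨p, hp, hps⟩ := Algebra.IsIntegral.isIntegral (R := Ainf k) s
  have hint : IsIntegral (PowerSeries k') (E.e i (algebraMap S F s)) := by
    refine ⟨p.map E.phi, hp.map _, ?_⟩
    rw [Polynomial.eval₂_map]
    have h1 : (algebraMap (PowerSeries k') (LaurentSeries k')).comp E.phi =
        ((E.e i).comp (algebraMap S F)).comp (algebraMap (Ainf k) S) := by
      refine RingHom.ext fun r => ?_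
      simp only [RingHom.comp_apply, LaurentSeries.coe_algebraMap]
      rw [← IsScalarTower.algebraMap_apply (Ainf k) S F, e_algebraMap_Ainf]
    rw [h1]
    show Polynomial.eval₂ (((E.e i).comp (algebraMap S F)).comp (algebraMap (Ainf k) S))
      (((E.e i).comp (algebraMap S F)) s) p = 0
    rw [← Polynomial.hom_eval₂, hps, map_zero]
  obtain ⟨P, hP⟩ := IsIntegrallyClosed.isIntegral_iff.mp hint
  exact ⟨P, by rw [← hP, LaurentSeries.coe_algebraMap]⟩

/-- the expansion `e i` on the chart at infinity, with values in power series. -/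
def sigma (i : ι) : S →+* PowerSeries k' :=
  liftPowerSeries ((E.e i).comp (algebraMap S F)) fun s => E.exists_powerSeries_e i s

lemma coe_sigma (i : ι) (s : S) :
    ofPowerSeries ℤ k' (E.sigma i s) = E.e i (algebraMap S F s) :=
  coe_liftPowerSeries _ _ s

lemma sigma_algebraMap (i : ι) (r : Ainf k) :
    E.sigma (S := S) i (algebraMap (Ainf k) S r) = E.phi r := by
  apply ofPowerSeries_injective (Γ := ℤ)
  rw [coe_sigma, ← IsScalarTower.algebraMap_apply (Ainf k) S F, e_algebraMap_Ainf]

lemma sigma_injective : Function.Injective (E.sigma (S := S)) := by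
  intro i j hij
  apply E.sep
  apply IsLocalization.ringHom_ext (nonZeroDivisors S)
  refine RingHom.ext fun s => ?_
  simp only [RingHom.comp_apply]
  have := congrArg (fun f => ofPowerSeries ℤ k' (f s)) hij
  simp only [coe_sigma] at this
  exact this

variable (S) in
/-- the `CenterData` of the chart at infinity. -/
def centerData : CenterData (Ainf k) S (PowerSeries k') ι where
  φ := E.phi
  φ_inj := E.phi_injective
  σ := E.sigma
  σ_inj := E.sigma_injective
  σ_φ := E.sigma_algebraMap
  w := PowerSeries.order
  w_mul := PowerSeries.order_mul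
  w_top _ := PowerSeries.order_eq_top
  𝔮 := Ideal.span {PowerSeries.X}
  𝔮_prime := PowerSeries.span_X_isPrime
  mem_𝔮 x := by
    rw [Ideal.mem_span_singleton, PowerSeries.X_dvd_iff,
      PowerSeries.order_ne_zero_iff_constCoeff_eq_zero]

variable (S)

@[simp] lemma centerData_φ : (E.centerData S).φ = E.phi := rfl
@[simp] lemma centerData_σ (i : ι) : (E.centerData S).σ i = E.sigma i := rfl
@[simp] lemma centerData_w (P : PowerSeries k') : (E.centerData S).w P = P.order := rfl

variable {S}

lemma toNat_order_sigma (i : ι) (s : S) :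
    (((E.sigma i s).order.toNat : ℕ) : ℤ) = (E.e i (algebraMap S F s)).order := by
  rw [toNat_order_eq_order, coe_sigma]

lemma toNat_order_phi (r : Ainf k) :
    (((E.phi r).order.toNat : ℕ) : ℤ) = (E.ρ (r : RatFunc k)).order := by
  rw [toNat_order_eq_order, coe_phi]

lemma sigma_ne_zero (i : ι) {s : S} (hs : s ≠ 0) : E.sigma i s ≠ 0 := by
  intro h
  have h1 := congrArg (ofPowerSeries ℤ k') h
  rw [coe_sigma, map_zero] at h1
  have h2 := (map_eq_zero_iff _ (E.e_injective i)).mp h1
  exact hs (IsFractionRing.injective S F (h2.trans (map_zero _).symm))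

lemma phi_ne_zero {r : Ainf k} (hr : r ≠ 0) : E.phi r ≠ 0 := fun h =>
  hr (E.phi_injective (h.trans (map_zero _).symm))

/-- the order of `φ X⁻¹` is the pole order of `ρ X`. -/
lemma order_phi_XinvAinf : (E.phi XinvAinf).order = E.poleOrder := by
  rw [order_eq_natCast_toNat (E.phi_ne_zero XinvAinf_ne_zero)]
  congr 1
  have h := E.toNat_order_phi XinvAinf
  have h2 : ((XinvAinf : Ainf k) : RatFunc k) = (RatFunc.X : RatFunc k)⁻¹ := rfl
  rw [h2, E.order_ρ (inv_ne_zero RatFunc.X_ne_zero), RatFunc.intDegree_inv,
    RatFunc.intDegree_X] at h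
  have h3 := E.poleOrder_spec
  omega

variable (S)

lemma mem_base_iff (r : Ainf k) : r ∈ (E.centerData S).base ↔ (E.phi r).order ≠ 0 := by
  rw [CenterData.base, Ideal.mem_comap, (E.centerData S).mem_𝔮]
  rfl

lemma mem_center_iff (i : ι) (s : S) :
    s ∈ (E.centerData S).center i ↔ (E.sigma i s).order ≠ 0 := by
  rw [CenterData.center, Ideal.mem_comap, (E.centerData S).mem_𝔮]
  rfl

lemma XinvAinf_mem_base : (XinvAinf : Ainf k) ∈ (E.centerData S).base := by
  rw [mem_base_iff, order_phi_XinvAinf]
  exact_mod_cast E.poleOrder_pos.ne'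

lemma base_ne_bot : (E.centerData S).base ≠ ⊥ := by
  intro h
  have := E.XinvAinf_mem_base S
  rw [h, Ideal.mem_bot] at this
  exact XinvAinf_ne_zero this

lemma base_eq_maximalIdeal : (E.centerData S).base = IsLocalRing.maximalIdeal (Ainf k) :=
  IsLocalRing.eq_maximalIdeal ((E.centerData S).base_isMaximal (E.base_ne_bot S))

lemma XinvAinf_notMem_base_sq : (XinvAinf : Ainf k) ∉ (E.centerData S).base ^ 2 := by
  rw [base_eq_maximalIdeal, maximalIdeal_Ainf_eq, Ideal.span_singleton_pow,
    Ideal.mem_span_singleton]
  rintro ⟨c, hc⟩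
  apply not_isUnit_XinvAinf (k := k)
  have h1 : (XinvAinf : Ainf k) * 1 = XinvAinf * (XinvAinf * c) := by
    rw [mul_one, ← mul_assoc, ← pow_two]
    exact hc
  have h2 := mul_left_cancel₀ XinvAinf_ne_zero h1
  exact IsUnit.of_mul_eq_one c h2.symm

lemma w_phi_XinvAinf : (E.centerData S).w ((E.centerData S).φ XinvAinf) = E.poleOrder :=
  E.order_phi_XinvAinf

lemma mem_center_iff' (i : ι) (s : S) :
    s ∈ (E.centerData S).center i ↔ s = 0 ∨ (E.e i (algebraMap S F s)).order ≠ 0 := by
  rw [mem_center_iff]
  by_cases hs : s = 0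
  · subst hs
    simp
  · have h1 := E.toNat_order_sigma i s
    have h2 := order_eq_natCast_toNat (E.sigma_ne_zero i hs)
    constructor
    · intro h
      right
      intro h0
      rw [h0] at h1
      apply h
      rw [h2]
      exact_mod_cast h1
    · rintro (h | h)
      · exact absurd h hs
      · intro h0
        rw [h0] at h1
        simp at h1
        exact h h1.symm

/-- Expansions with the same orders have the same centre. -/
lemma center_eq_of_forall {i j : ι} (h : ∀ f : F, (E.e i f).order = (E.e j f).order) :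
    (E.centerData S).center i = (E.centerData S).center j := by
  ext s
  rw [mem_center_iff', mem_center_iff', h]

variable {S}

/-- The order of `σ i s` as a natural number, for `s ≠ 0`. -/
lemma w_sigma_eq (i : ι) {s : S} (hs : s ≠ 0) :
    (E.centerData S).w ((E.centerData S).σ i s) =
      ((E.e i (algebraMap S F s)).order.toNat : ℕ) := by
  rw [centerData_σ, centerData_w, order_eq_natCast_toNat (E.sigma_ne_zero i hs)]
  congr 1
  have := E.toNat_order_sigma i s
  omega

lemma order_e_nonneg (i : ι) (s : S) : 0 ≤ (E.e i (algebraMap S F s)).order := by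
  rw [← E.toNat_order_sigma i s]
  exact Int.natCast_nonneg _

variable (S)

/-- Over an algebraically closed field, all primes of `S` over the base have inertia degree
one. -/
theorem inertiaDeg_eq_one [IsAlgClosed k] (P : Ideal S) [P.IsPrime]
    (hP : P.comap (algebraMap (Ainf k) S) = (E.centerData S).base) :
    P.inertiaDeg (Ainf k) = 1 := by
  haveI := (E.centerData S).base_isMaximal (E.base_ne_bot S)
  haveI : P.LiesOver (E.centerData S).base := ⟨hP.symm⟩
  have hP0 : P ≠ ⊥ := by
    rintro rfl
    apply E.base_ne_bot S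
    rw [← hP]
    exact Ideal.comap_bot_of_injective _ (FaithfulSMul.algebraMap_injective (Ainf k) S)
  haveI : P.IsMaximal := Ideal.IsPrime.isMaximal inferInstance hP0
  refine inertiaDeg_eq_one_of_isAlgClosed (k := k) (E.centerData S).base P ?_
  intro y
  obtain ⟨r, rfl⟩ := Ideal.Quotient.mk_surjective y
  obtain ⟨c, hc⟩ := exists_sub_mem_maximalIdeal_Ainf r
  refine ⟨c, ?_⟩
  rw [IsScalarTower.algebraMap_apply k (Ainf k) (Ainf k ⧸ (E.centerData S).base),
    Ideal.Quotient.algebraMap_eq, eq_comm, Ideal.Quotient.eq, base_eq_maximalIdeal]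
  exact hc

/-- every nonzero prime of `S` lies over the base prime. -/
lemma comap_eq_base (P : Ideal S) [P.IsPrime] (hP0 : P ≠ ⊥) :
    P.comap (algebraMap (Ainf k) S) = (E.centerData S).base := by
  rw [E.base_eq_maximalIdeal S]
  have hne : P.comap (algebraMap (Ainf k) S) ≠ ⊥ := by
    obtain ⟨x, hxP, hx0⟩ := Submodule.exists_mem_ne_zero_of_ne_bot hP0
    exact Ideal.comap_ne_bot_of_integral_mem hx0 hxP (Algebra.IsIntegral.isIntegral x)
  have hprime : (P.comap (algebraMap (Ainf k) S)).IsPrime := Ideal.comap_isPrime _ _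
  exact IsLocalRing.eq_maximalIdeal (hprime.isMaximal hne)

lemma finrank_Ainf_eq : finrank (Ainf k) S = finrank (RatFunc k) F :=
  (IsFractionRing.finrank_eq (Ainf k) (RatFunc k) S F).symm

/-! ### The orbit dictionary -/

section Orbit

variable [Fintype ι] [CharZero k] [IsAlgClosed k] {G : Type*} [Group G] [MulAction G ι]
  (hcard : Fintype.card ι = finrank (RatFunc k) F)
  (hG : ∀ (g : G) (i : ι) (f : F), (E.e (g • i) f).order = (E.e i f).order)
  (hdiv : ∀ i : ι, CenterData.orbSize G i ∣ E.poleOrder)
  (hsupp : ∀ (i : ι) (f : F),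
    ((E.poleOrder / CenterData.orbSize G i : ℕ) : ℤ) ∣ (E.e i f).order)

include hsupp in
lemma exists_w_sigma_eq (i : ι) (s : S) (hs : s ≠ 0) :
    ∃ t : ℕ, (E.centerData S).w ((E.centerData S).σ i s) =
      ((t * (E.poleOrder / CenterData.orbSize G i) : ℕ) : ℕ∞) := by
  rw [E.w_sigma_eq i hs]
  obtain ⟨c, hc⟩ := hsupp i (algebraMap S F s)
  have h0 := E.order_e_nonneg i s
  generalize E.poleOrder / CenterData.orbSize G i = d at hc ⊢
  generalize (E.e i (algebraMap S F s)).order = o at hc h0 ⊢
  by_cases hd : d = 0
  · refine ⟨0, ?_⟩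
    subst hd
    simp only [Nat.cast_zero, zero_mul] at hc
    rw [hc]
    simp
  · have hdpos : 0 < (d : ℤ) := by exact_mod_cast Nat.pos_of_ne_zero hd
    have hc0 : 0 ≤ c := by
      by_contra hneg
      push Not at hneg
      have : (d : ℤ) * c < 0 := mul_neg_of_pos_of_neg hdpos hneg
      omega
    refine ⟨c.toNat, ?_⟩
    congr 1
    have h1 : ((c.toNat : ℕ) : ℤ) = c := Int.toNat_of_nonneg hc0
    have h2 : ((o.toNat : ℕ) : ℤ) = ((c.toNat * d : ℕ) : ℤ) := by
      rw [Int.toNat_of_nonneg h0, Nat.cast_mul, h1, hc]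
      ring
    exact_mod_cast h2

include hcard hG hdiv hsupp in
/-- the ramification index of the centre of `i` is the size of the orbit of `i`. -/
theorem ramificationIdx_center (i : ι) :
    ((E.centerData S).center i).ramificationIdx (Ainf k) = CenterData.orbSize G i :=
  (E.centerData S).ramificationIdx_center (E.base_ne_bot S)
    (hcard.trans (FieldFamily.finrank_Ainf_eq (k := k) (F := F) S).symm)
    (fun P hP hPc => by haveI := hP; exact E.inertiaDeg_eq_one S P hPc)
    (fun g i => E.center_eq_of_forall S (hG g i)) (E.XinvAinf_mem_base S)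
    (E.XinvAinf_notMem_base_sq S) (E.w_phi_XinvAinf S) hdiv (E.exists_w_sigma_eq S hsupp) i

include hcard hG hdiv hsupp in
/-- two expansions have the same centre iff they are in the same orbit. -/
theorem center_eq_iff (i i' : ι) :
    (E.centerData S).center i' = (E.centerData S).center i ↔ i' ∈ MulAction.orbit G i :=
  (E.centerData S).center_eq_iff (E.base_ne_bot S)
    (hcard.trans (FieldFamily.finrank_Ainf_eq (k := k) (F := F) S).symm)
    (fun P hP hPc => by haveI := hP; exact E.inertiaDeg_eq_one S P hPc)
    (fun g i => E.center_eq_of_forall S (hG g i)) (E.XinvAinf_mem_base S)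
    (E.XinvAinf_notMem_base_sq S) (E.w_phi_XinvAinf S) hdiv (E.exists_w_sigma_eq S hsupp) i i'

include hcard hG hdiv hsupp in
/-- the number of primes of the chart at infinity is the number of orbits. -/
theorem card_heightOneSpectrum :
    Nat.card (HeightOneSpectrum S) = Nat.card (MulAction.orbitRel.Quotient G ι) := by
  rw [← (E.centerData S).card_primesOver_eq_card_orbits (E.base_ne_bot S)
    (hcard.trans (FieldFamily.finrank_Ainf_eq (k := k) (F := F) S).symm)
    (fun P hP hPc => by haveI := hP; exact E.inertiaDeg_eq_one S P hPc)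
    (fun g i => E.center_eq_of_forall S (hG g i)) (E.XinvAinf_mem_base S)
    (E.XinvAinf_notMem_base_sq S) (E.w_phi_XinvAinf S) hdiv (E.exists_w_sigma_eq S hsupp)]
  refine Nat.card_congr
    { toFun := fun P => ⟨P.asIdeal, P.isPrime, ?_⟩
      invFun := fun P => ⟨P.1, P.2.1, ?_⟩
      left_inv := fun P => rfl
      right_inv := fun P => rfl }
  · haveI := P.isPrime
    exact E.comap_eq_base S P.asIdeal P.ne_bot
  · rintro h
    apply E.base_ne_bot S
    rw [← P.2.2, h]
    exact Ideal.comap_bot_of_injective _ (FaithfulSMul.algebraMap_injective (Ainf k) S)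

include hcard in
/-- every prime of the chart at infinity is the centre of some expansion. -/
theorem exists_center_eq (P : HeightOneSpectrum S) :
    ∃ i : ι, (E.centerData S).center i = P.asIdeal := by
  haveI := P.isPrime
  have hP := E.comap_eq_base S P.asIdeal P.ne_bot
  have h1 := (E.centerData S).card_center_eq (E.base_ne_bot S)
    (hcard.trans (FieldFamily.finrank_Ainf_eq (k := k) (F := F) S).symm) P.asIdeal hP
  have h2 : 0 < P.asIdeal.ramificationIdx (Ainf k) := Ideal.ramificationIdx_pos P.asIdeal (Ainf k)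
  rw [E.inertiaDeg_eq_one S P.asIdeal hP, mul_one] at h1
  have h3 : 0 < Nat.card {i // (E.centerData S).center i = P.asIdeal} := by omega
  obtain ⟨i, hi⟩ := (Nat.card_pos_iff.mp h3).1
  exact ⟨i, hi⟩

include hcard hG hdiv hsupp in
/-- the order of the expansion of an element of `S` in terms of the valuation at the centre. -/
lemma order_e_algebraMap_eq (i : ι) (P : HeightOneSpectrum S)
    (hP : (E.centerData S).center i = P.asIdeal) {s : S} (hs : s ≠ 0) :
    (E.e i (algebraMap S F s)).order =
      ((E.poleOrder / CenterData.orbSize G i : ℕ) : ℤ) * ordV P (algebraMap S F s) := by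
  have hn0 : 0 ≤ ordV P (algebraMap S F s) := ordV_algebraMap_nonneg P hs
  obtain ⟨m, hm⟩ := Int.eq_ofNat_of_zero_le hn0
  have hs1 : s ∈ ((E.centerData S).center i) ^ m := by
    rw [hP]
    exact (le_ordV_algebraMap_iff (L := F) P hs m).mp (by omega)
  have hs2 : s ∉ ((E.centerData S).center i) ^ (m + 1) := by
    rw [hP]
    intro h
    have := (le_ordV_algebraMap_iff (L := F) P hs (m + 1)).mpr h
    push_cast at this
    omega
  have hw := (E.centerData S).w_σ_eq (E.base_ne_bot S)
    (hcard.trans (FieldFamily.finrank_Ainf_eq (k := k) (F := F) S).symm)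
    (fun P hP hPc => by haveI := hP; exact E.inertiaDeg_eq_one S P hPc)
    (fun g i => E.center_eq_of_forall S (hG g i)) (E.XinvAinf_mem_base S)
    (E.XinvAinf_notMem_base_sq S) (E.w_phi_XinvAinf S) hdiv (E.exists_w_sigma_eq S hsupp)
    i hs1 hs2
  rw [E.w_sigma_eq i hs] at hw
  have hw' : (E.e i (algebraMap S F s)).order.toNat =
      m * (E.poleOrder / CenterData.orbSize G i) := by exact_mod_cast hw
  have h0 := E.order_e_nonneg i s
  rw [hm, ← Int.toNat_of_nonneg h0, hw']
  push_cast
  ring

include hcard hG hdiv hsupp in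
/-- **Dictionary at infinity**: the order of the expansion `e i f` is `M / |G i|` times the
valuation of `f` at the centre of `i`. -/
theorem order_e_eq_mul_ordV (i : ι) (P : HeightOneSpectrum S)
    (hP : (E.centerData S).center i = P.asIdeal) {f : F} (hf : f ≠ 0) :
    (E.e i f).order = ((E.poleOrder / CenterData.orbSize G i : ℕ) : ℤ) * ordV P f := by
  obtain ⟨a, b, hb, rfl⟩ := IsFractionRing.div_surjective (A := S) f
  have hb0 : b ≠ 0 := nonZeroDivisors.ne_zero hb
  have ha0 : a ≠ 0 := by
    rintro rfl
    simp at hf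
  have ha' : algebraMap S F a ≠ 0 := fun h =>
    ha0 (IsFractionRing.injective S F (h.trans (map_zero _).symm))
  have hb' : algebraMap S F b ≠ 0 := fun h =>
    hb0 (IsFractionRing.injective S F (h.trans (map_zero _).symm))
  have e1 := E.order_e_algebraMap_eq S hcard hG hdiv hsupp i P hP ha0
  have e2 := E.order_e_algebraMap_eq S hcard hG hdiv hsupp i P hP hb0
  have ha'' : E.e i (algebraMap S F a) ≠ 0 := fun h =>
    ha' ((map_eq_zero_iff _ (E.e_injective i)).mp h)
  have hb'' : E.e i (algebraMap S F b) ≠ 0 := fun h =>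
    hb' ((map_eq_zero_iff _ (E.e_injective i)).mp h)
  rw [map_div₀, order_div_laurent ha'' hb'', div_eq_mul_inv, ordV_mul P ha' (inv_ne_zero hb'),
    ordV_inv, e1, e2]
  ring

end Orbit

end FieldFamily

end Fermat.Agent.ProgramR.CuspLocal
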