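import Mathlib
import Fermat.Agent.ProgramR.CuspLocal.InftyChart
import Fermat.Agent.ProgramR.Analytic.PlacesOrbit
import Fermat.Agent.ProgramR.Alg.OrdVal

/-!
# The dictionary at infinity (Program R, generic algebraically closed field)

For a `LaurentFamily E` on `B` indexed by `ι` (see `InftyChart.lean`) and a group `G` acting on `ι`
such that orders are constant along orbits, orbits have size dividing the pole order `M` of `X`
and the expansions `e i b` are supported on multiples of `M / |G i|`:

* `LaurentFamily.center_eq_iff`: two expansions have the same centre iff same orbit;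
* `LaurentFamily.ramificationIdx_center`: `e(center i) = |G i|`;
* `LaurentFamily.order_expFF_eq_mul_ordV`: `ord (expFF i f) = (M / |G i|) * ordV P f`;
* `LaurentFamily.exists_center_eq`: every prime of `Binf` is a centre;
* `LaurentFamily.card_heightOneSpectrum_Binf`: `#Spec Binf = #(G-orbits)`.
-/

set_option autoImplicit false
set_option linter.unusedSectionVars false
set_option linter.style.haveILetI false

noncomputable section

open Polynomial Module HahnSeries IsDedekindDomain
open Fermat.Agent.ProgramR.RR Fermat.Agent.ProgramR.Alg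

namespace Fermat.Agent.ProgramR.CuspLocal

namespace LaurentFamily

variable {k : Type*} [Field k] {B : Type*} [CommRing B] [IsDedekindDomain B] [Algebra k B]
  [Algebra k[X] B] [IsScalarTower k k[X] B] [Module.Finite k[X] B] [IsTorsionFree k[X] B]
  {ι : Type*} (E : LaurentFamily k B ι) [Fintype ι] [Nonempty ι] [CharZero k] [IsAlgClosed k]
  {G : Type*} [Group G] [MulAction G ι]

/-- every nonzero prime of `Binf` lies over the base prime. -/
lemma comap_eq_base (P : Ideal (Binf k B)) [P.IsPrime] (hP0 : P ≠ ⊥) :
    P.comap (algebraMap (Ainf k) (Binf k B)) = E.centerData.base := by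
  rw [E.base_eq_maximalIdeal]
  have hne : P.comap (algebraMap (Ainf k) (Binf k B)) ≠ ⊥ := by
    obtain ⟨x, hxP, hx0⟩ := Submodule.exists_mem_ne_zero_of_ne_bot hP0
    exact Ideal.comap_ne_bot_of_integral_mem hx0 hxP (Algebra.IsIntegral.isIntegral x)
  have hprime : (P.comap (algebraMap (Ainf k) (Binf k B))).IsPrime := Ideal.comap_isPrime _ _
  exact IsLocalRing.eq_maximalIdeal (hprime.isMaximal hne)

section

variable (hcard : Fintype.card ι = finrank k[X] B)
  (hG : ∀ (g : G) (i : ι) (b : B), (E.e (g • i) b).order = (E.e i b).order)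
  (hdiv : ∀ i : ι, CenterData.orbSize G i ∣ E.poleOrder)
  (hsupp : ∀ (i : ι) (b : B) (n : ℤ),
    ¬ ((E.poleOrder / CenterData.orbSize G i : ℕ) : ℤ) ∣ n → (E.e i b).coeff n = 0)

include hsupp in
lemma exists_w_sigma_eq (i : ι) (s : Binf k B) (hs : s ≠ 0) :
    ∃ t : ℕ, E.centerData.w (E.centerData.σ i s) =
      ((t * (E.poleOrder / CenterData.orbSize G i) : ℕ) : ℕ∞) := by
  rw [E.w_sigma_eq i hs]
  obtain ⟨c, hc⟩ := E.dvd_order_expFF_of_forall i _ (hsupp i) (s : FF k B)
  have h0 := E.order_expFF_nonneg i s
  generalize E.poleOrder / CenterData.orbSize G i = d at hc ⊢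
  generalize (E.expFF i (s : FF k B)).order = o at hc h0 ⊢
  by_cases hd : d = 0
  · refine ⟨0, ?_⟩
    subst hd
    simp only [Nat.cast_zero, zero_mul] at hc
    rw [hc]
    simp
  · have hdpos : 0 < (d : ℤ) := by exact_mod_cast Nat.pos_of_ne_zero hd
    have hc0 : 0 ≤ c := by
      by_contra hneg
      push Not at hneg
      have : (d : ℤ) * c < 0 := mul_neg_of_pos_of_neg hdpos hneg
      omega
    refine ⟨c.toNat, ?_⟩
    congr 1
    have h1 : ((c.toNat : ℕ) : ℤ) = c := Int.toNat_of_nonneg hc0
    have h2 : ((o.toNat : ℕ) : ℤ) = ((c.toNat * d : ℕ) : ℤ) := by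
      rw [Int.toNat_of_nonneg h0, Nat.cast_mul, h1, hc]
      ring
    exact_mod_cast h2

include hcard hG hdiv hsupp in
/-- the ramification index of the centre of `i` is the size of the orbit of `i`. -/
theorem ramificationIdx_center (i : ι) :
    (E.centerData.center i).ramificationIdx (Ainf k) = CenterData.orbSize G i :=
  E.centerData.ramificationIdx_center E.base_ne_bot
    (hcard.trans (finrank_Ainf_Binf k B).symm)
    (fun P hP hPc => by haveI := hP; exact E.inertiaDeg_eq_one P hPc)
    (fun g i => E.center_eq_of_forall (hG g i)) E.XinvAinf_mem_base E.XinvAinf_notMem_base_sq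
    E.w_phi_XinvAinf hdiv (E.exists_w_sigma_eq hsupp) i

include hcard hG hdiv hsupp in
/-- two expansions have the same centre iff they are in the same orbit. -/
theorem center_eq_iff (i i' : ι) :
    E.centerData.center i' = E.centerData.center i ↔ i' ∈ MulAction.orbit G i :=
  E.centerData.center_eq_iff E.base_ne_bot
    (hcard.trans (finrank_Ainf_Binf k B).symm)
    (fun P hP hPc => by haveI := hP; exact E.inertiaDeg_eq_one P hPc)
    (fun g i => E.center_eq_of_forall (hG g i)) E.XinvAinf_mem_base E.XinvAinf_notMem_base_sq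
    E.w_phi_XinvAinf hdiv (E.exists_w_sigma_eq hsupp) i i'

include hcard hG hdiv hsupp in
/-- the primes of `Binf` over the base prime are in bijection with the orbits. -/
theorem card_primesOver_base :
    Nat.card {P : Ideal (Binf k B) // P.IsPrime ∧
      P.comap (algebraMap (Ainf k) (Binf k B)) = E.centerData.base} =
      Nat.card (MulAction.orbitRel.Quotient G ι) :=
  E.centerData.card_primesOver_eq_card_orbits E.base_ne_bot
    (hcard.trans (finrank_Ainf_Binf k B).symm)
    (fun P hP hPc => by haveI := hP; exact E.inertiaDeg_eq_one P hPc)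
    (fun g i => E.center_eq_of_forall (hG g i)) E.XinvAinf_mem_base E.XinvAinf_notMem_base_sq
    E.w_phi_XinvAinf hdiv (E.exists_w_sigma_eq hsupp)

include hcard hG hdiv hsupp in
/-- the number of primes of the chart at infinity is the number of orbits. -/
theorem card_heightOneSpectrum_Binf :
    Nat.card (HeightOneSpectrum (Binf k B)) = Nat.card (MulAction.orbitRel.Quotient G ι) := by
  rw [← E.card_primesOver_base hcard hG hdiv hsupp]
  refine Nat.card_congr
    { toFun := fun P => ⟨P.asIdeal, P.isPrime, ?_⟩
      invFun := fun P => ⟨P.1, P.2.1, ?_⟩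
      left_inv := fun P => rfl
      right_inv := fun P => rfl }
  · haveI := P.isPrime
    exact E.comap_eq_base P.asIdeal P.ne_bot
  · rintro h
    apply E.base_ne_bot
    rw [← P.2.2, h]
    exact Ideal.comap_bot_of_injective _
      (FaithfulSMul.algebraMap_injective (Ainf k) (Binf k B))

include hcard in
/-- every prime of the chart at infinity is the centre of some expansion. -/
theorem exists_center_eq (P : HeightOneSpectrum (Binf k B)) :
    ∃ i : ι, E.centerData.center i = P.asIdeal := by
  haveI := P.isPrime
  have hP := E.comap_eq_base P.asIdeal P.ne_bot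
  have h1 := E.centerData.card_center_eq E.base_ne_bot
    (hcard.trans (finrank_Ainf_Binf k B).symm) P.asIdeal hP
  have h2 : 0 < P.asIdeal.ramificationIdx (Ainf k) := Ideal.ramificationIdx_pos P.asIdeal (Ainf k)
  rw [E.inertiaDeg_eq_one P.asIdeal hP, mul_one] at h1
  have h3 : 0 < Nat.card {i // E.centerData.center i = P.asIdeal} := by omega
  obtain ⟨i, hi⟩ := (Nat.card_pos_iff.mp h3).1
  exact ⟨i, hi⟩

include hcard hG hdiv hsupp in
/-- the order of the expansion of an element of `Binf` in terms of the valuation at the centre. -/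
lemma order_expFF_Binf_eq (i : ι) (P : HeightOneSpectrum (Binf k B))
    (hP : E.centerData.center i = P.asIdeal) {s : Binf k B} (hs : s ≠ 0) :
    (E.expFF i (s : FF k B)).order =
      ((E.poleOrder / CenterData.orbSize G i : ℕ) : ℤ) *
        ordV P (algebraMap (Binf k B) (FF k B) s) := by
  have hn0 : 0 ≤ ordV P (algebraMap (Binf k B) (FF k B) s) := ordV_algebraMap_nonneg P hs
  obtain ⟨m, hm⟩ := Int.eq_ofNat_of_zero_le hn0
  have hs1 : s ∈ (E.centerData.center i) ^ m := by
    rw [hP]
    exact (le_ordV_algebraMap_iff (L := FF k B) P hs m).mp (by omega)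
  have hs2 : s ∉ (E.centerData.center i) ^ (m + 1) := by
    rw [hP]
    intro h
    have := (le_ordV_algebraMap_iff (L := FF k B) P hs (m + 1)).mpr h
    push_cast at this
    omega
  have hw := E.centerData.w_σ_eq E.base_ne_bot
    (hcard.trans (finrank_Ainf_Binf k B).symm)
    (fun P hP hPc => by haveI := hP; exact E.inertiaDeg_eq_one P hPc)
    (fun g i => E.center_eq_of_forall (hG g i)) E.XinvAinf_mem_base E.XinvAinf_notMem_base_sq
    E.w_phi_XinvAinf hdiv (E.exists_w_sigma_eq hsupp) i hs1 hs2
  rw [E.w_sigma_eq i hs] at hw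
  have hw' : (E.expFF i (s : FF k B)).order.toNat =
      m * (E.poleOrder / CenterData.orbSize G i) := by exact_mod_cast hw
  have h0 := E.order_expFF_nonneg i s
  rw [hm, ← Int.toNat_of_nonneg h0, hw']
  push_cast
  ring

include hcard hG hdiv hsupp in
/-- **Dictionary at infinity**: the order of the expansion `expFF i f` is `M / |G i|` times the
valuation of `f` at the centre of `i`. -/
theorem order_expFF_eq_mul_ordV (i : ι) (P : HeightOneSpectrum (Binf k B))
    (hP : E.centerData.center i = P.asIdeal) {f : FF k B} (hf : f ≠ 0) :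
    (E.expFF i f).order = ((E.poleOrder / CenterData.orbSize G i : ℕ) : ℤ) * ordV P f := by
  obtain ⟨a, b, hb, rfl⟩ := IsFractionRing.div_surjective (A := Binf k B) f
  have hb0 : b ≠ 0 := nonZeroDivisors.ne_zero hb
  have ha0 : a ≠ 0 := by
    rintro rfl
    simp at hf
  have ha' : algebraMap (Binf k B) (FF k B) a ≠ 0 := by
    simpa using (IsFractionRing.injective (Binf k B) (FF k B)).ne ha0
  have hb' : algebraMap (Binf k B) (FF k B) b ≠ 0 := by
    simpa using (IsFractionRing.injective (Binf k B) (FF k B)).ne hb0
  have e1 := E.order_expFF_Binf_eq hcard hG hdiv hsupp i P hP ha0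
  have e2 := E.order_expFF_Binf_eq hcard hG hdiv hsupp i P hP hb0
  have ha'' : E.expFF i (algebraMap (Binf k B) (FF k B) a) ≠ 0 := fun h =>
    ha' ((map_eq_zero_iff _ (E.expFF_injective i)).mp h)
  have hb'' : E.expFF i (algebraMap (Binf k B) (FF k B) b) ≠ 0 := fun h =>
    hb' ((map_eq_zero_iff _ (E.expFF_injective i)).mp h)
  rw [map_div₀, order_div_laurent ha'' hb'', div_eq_mul_inv, ordV_mul P ha' (inv_ne_zero hb'),
    ordV_inv]
  change (E.expFF i (a : FF k B)).order - (E.expFF i (b : FF k B)).order = _
  rw [e1, e2]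
  ring

end

end LaurentFamily

end Fermat.Agent.ProgramR.CuspLocal
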