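import Mathlib
import Fermat.Agent.ProgramR.CuspLocal.Translate
import Fermat.Agent.ProgramR.CuspLocal.Twist

/-!
# Behaviour of the cusp expansions along `⟨T⟩`-orbits (Program R, package C)
-/

set_option autoImplicit false

noncomputable section

open Complex Filter Function
open UpperHalfPlane hiding I
open Matrix Matrix.SpecialLinearGroup CongruenceSubgroup
open scoped Real Topology Manifold MatrixGroups ModularGroup

namespace Fermat.Agent.ProgramR.CuspLocal

/-- Two Laurent series whose coefficients differ by nonzero factors have the same order. -/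
lemma order_eq_of_coeff_eq_mul {x y : LaurentSeries ℂ} (u : ℤ → ℂ) (hu : ∀ n, u n ≠ 0)
    (h : ∀ n, y.coeff n = u n * x.coeff n) : y.order = x.order := by
  have hsupp : y.support = x.support := by
    ext n
    simp only [HahnSeries.mem_support, h n, ne_eq, mul_eq_zero, hu n, false_or]
  have h0 : y = 0 ↔ x = 0 := by
    rw [← HahnSeries.support_eq_empty_iff, ← HahnSeries.support_eq_empty_iff, hsupp]
  by_cases hx : x = 0
  · rw [hx, h0.mpr hx]
  · have hy : y ≠ 0 := fun hy => hx (h0.mp hy)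
    rw [HahnSeries.order_of_ne hx, HahnSeries.order_of_ne hy]
    congr 1

variable (N : ℕ) [NeZero N]

/-- Coefficients of the expansion at `T^k g`. -/
theorem cuspExp_T_zpow_mul_coeff (g : SL(2, ℤ)) (k : ℤ) (h : ↥(WH0 (Gamma0 N))) (n : ℤ) :
    (cuspExp N (ModularGroup.T ^ k * g) h).coeff n =
      twistFactor (N : ℝ) (-(k : ℝ)) ^ n * (cuspExp N g h).coeff n := by
  obtain ⟨m, hm⟩ := exists_isMeroAtInfty_slTranslate (mem_WH0.mp h.2) g (NeZero.pos N)
    (conj_T_zpow_N_mem N g)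
  have key := laurentExp_coeff_of_vadd (natCast_pos_real N) hm
    (mdifferentiable_slTranslate (ModularGroup.T ^ k * g) (mem_WH0.mp h.2).mdiff) (-(k : ℝ))
    (fun τ => slTranslate_T_zpow_mul g k h.1 τ)
  rw [cuspExp_apply, cuspExp_apply]
  exact key.2 n

/-- The order of the expansion is constant along `⟨T⟩`-orbits. -/
theorem cuspExp_T_zpow_mul_order (g : SL(2, ℤ)) (k : ℤ) (h : ↥(WH0 (Gamma0 N))) :
    (cuspExp N (ModularGroup.T ^ k * g) h).order = (cuspExp N g h).order :=
  order_eq_of_coeff_eq_mul (fun n => twistFactor (N : ℝ) (-(k : ℝ)) ^ n)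
    (fun n => zpow_ne_zero n (twistFactor_ne_zero _ _)) (cuspExp_T_zpow_mul_coeff N g k h)

lemma twistFactor_zpow_eq_one_iff (w n : ℤ) :
    twistFactor (N : ℝ) (-(w : ℝ)) ^ n = 1 ↔ (N : ℤ) ∣ w * n := by
  have hN : (N : ℂ) ≠ 0 := by exact_mod_cast NeZero.ne N
  rw [twistFactor, ← Complex.exp_int_mul, Complex.exp_eq_one_iff]
  constructor
  · rintro ⟨r, hr⟩
    refine ⟨-r, ?_⟩
    have h2 : (2 * (π : ℂ) * I) ≠ 0 := by
      simp [Real.pi_ne_zero, Complex.I_ne_zero]
    have h3 : ((w : ℂ) * n) = (N : ℂ) * (-(r : ℂ)) := by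
      have : (n : ℂ) * (2 * π * I * ((-(w : ℝ) : ℝ) : ℂ) / ((N : ℝ) : ℂ)) * (N : ℂ) =
          (r : ℂ) * (2 * π * I) * (N : ℂ) := by rw [hr]
      push_cast at this
      field_simp at this
      linear_combination -this
    exact_mod_cast h3
  · rintro ⟨r, hr⟩
    refine ⟨-r, ?_⟩
    have h3 : ((w : ℂ) * n) = (N : ℂ) * (r : ℂ) := by exact_mod_cast hr
    push_cast
    field_simp
    linear_combination -h3

/-- Support of the expansion: if `g⁻¹ T^w g ∈ Γ₀(N)` then only the exponents `n` with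
`N ∣ w n` occur. -/
theorem cuspExp_coeff_eq_zero_of_not_dvd (g : SL(2, ℤ)) {w : ℤ}
    (hw : g⁻¹ * (ModularGroup.T ^ w * g) ∈ Gamma0 N) (h : ↥(WH0 (Gamma0 N))) {n : ℤ}
    (hn : ¬ (N : ℤ) ∣ w * n) : (cuspExp N g h).coeff n = 0 := by
  have h1 := cuspExp_T_zpow_mul_coeff N g w h n
  have h2 : cuspExp N (ModularGroup.T ^ w * g) = cuspExp N g := by
    have : ModularGroup.T ^ w * g = g * (g⁻¹ * (ModularGroup.T ^ w * g)) := by group
    rw [this, cuspExp_mul_right N g hw]
  rw [h2] at h1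
  have h3 : twistFactor (N : ℝ) (-(w : ℝ)) ^ n ≠ 1 :=
    fun h => hn ((twistFactor_zpow_eq_one_iff N w n).mp h)
  by_contra h4
  apply h3
  have h5 : (twistFactor (N : ℝ) (-(w : ℝ)) ^ n - 1) * (cuspExp N g h).coeff n = 0 := by
    rw [sub_mul, one_mul, ← h1, sub_self]
  rcases mul_eq_zero.mp h5 with h6 | h6
  · exact sub_eq_zero.mp h6
  · exact absurd h6 h4

/-- Support of the expansion in terms of the width `w` of the cusp: only exponents divisible by
`N / w` occur, i.e. the expansion is a Laurent series in `q_w = q_N^{N/w}`. -/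
theorem cuspExp_coeff_eq_zero_of_not_dvd_width (g : SL(2, ℤ)) (h : ↥(WH0 (Gamma0 N))) {n : ℤ}
    (hn : ¬ ((N / width N (QuotientGroup.mk g) : ℕ) : ℤ) ∣ n) : (cuspExp N g h).coeff n = 0 := by
  set w := width N (QuotientGroup.mk g) with hwdef
  have hw : g⁻¹ * (ModularGroup.T ^ (w : ℤ) * g) ∈ Gamma0 N := by
    rw [← T_zpow_smul_mk_eq_iff, zpow_natCast]
    exact T_pow_width_smul N _
  refine cuspExp_coeff_eq_zero_of_not_dvd N g hw h ?_
  intro hdvd
  apply hn
  have hwN : w ∣ N := width_dvd N _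
  have hwpos : 0 < w := width_pos N _
  obtain ⟨d, hd⟩ := hwN
  have hdiv : N / w = d := by rw [hd, Nat.mul_div_cancel_left d hwpos]
  rw [hdiv]
  have hcast : (N : ℤ) = (w : ℤ) * (d : ℤ) := by exact_mod_cast hd
  rw [hcast] at hdvd
  exact (mul_dvd_mul_iff_left (by exact_mod_cast hwpos.ne')).mp hdvd

end Fermat.Agent.ProgramR.CuspLocal
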