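import Mathlib
import Fermat.Agent.ProgramR.CuspLocal.CuspExp
import Fermat.Agent.ProgramR.LevelOne.WH0

/-!
# The expansion of `j` at the cusps (Program R, package C)

In the parameter `q_N = exp(2πiz/N)` the function `j` has order exactly `-N` and leading
coefficient one at every cusp.
-/

set_option autoImplicit false

noncomputable section

open Complex Filter Function
open UpperHalfPlane hiding I
open Matrix Matrix.SpecialLinearGroup CongruenceSubgroup
open scoped Real Topology Manifold MatrixGroups ModularGroup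

namespace Fermat.Agent.ProgramR.CuspLocal

local notation "𝕢" => Periodic.qParam

variable (N : ℕ) [NeZero N]

/-- `j` as an element of `WH0 Γ₀(N)`. -/
def jWH0 : ↥(WH0 (Gamma0 N)) := ⟨LevelOne.jInv, LevelOne.jInv_mem_WH0 (Gamma0 N)⟩

lemma slTranslate_jInv (g : SL(2, ℤ)) : slTranslate g LevelOne.jInv = LevelOne.jInv := by
  funext z
  rw [slTranslate_apply, LevelOne.jInv_smul]

lemma tendsto_qPow_mul_jInv :
    Tendsto (QExp.qPow (N : ℝ) N * LevelOne.jInv) atImInfty (𝓝 1) := by
  refine LevelOne.tendsto_jInv_mul_q.congr fun z => ?_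
  rw [Pi.mul_apply, QExp.qPow_apply, qParam_natCast_pow N (NeZero.pos N), mul_comm]

lemma isMeroAtInfty_jInv : QExp.IsMeroAtInfty (N : ℝ) N LevelOne.jInv := by
  refine ⟨LevelOne.mdifferentiable_jInv, ?_, (tendsto_qPow_mul_jInv N).isBigO_one ℝ⟩
  apply QExp.periodic_comp_ofComplex_of_vadd
  intro τ
  have h := LevelOne.jInv_smul (ModularGroup.T ^ (N : ℤ)) τ
  rw [modular_T_zpow_smul] at h
  simpa using h

/-- The leading coefficient of `j` in `q_N` is at `q_N^{-N}` and equals one. -/
theorem cuspExp_jInv_coeff (g : SL(2, ℤ)) : (cuspExp N g (jWH0 N)).coeff (-(N : ℤ)) = 1 := by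
  have hm := isMeroAtInfty_jInv N
  have hb := hm.isHolPerBdd (natCast_pos_real N)
  rw [cuspExp_apply]
  show (QExp.laurentExp (N : ℝ) (slTranslate g LevelOne.jInv)).coeff (-(N : ℤ)) = 1
  rw [slTranslate_jInv, QExp.laurentExp_coeff (natCast_pos_real N) hm, if_pos (by omega)]
  have h0 : (-(N : ℤ) + (N : ℤ)).toNat = 0 := by simp
  rw [h0, qExpansion_coeff_zero (natCast_pos_real N) (hb.analyticAt (natCast_pos_real N))
    hb.periodic]
  exact (tendsto_qPow_mul_jInv N).limUnder_eq

theorem cuspExp_jInv_coeff_of_lt (g : SL(2, ℤ)) {n : ℤ} (hn : n < -(N : ℤ)) :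
    (cuspExp N g (jWH0 N)).coeff n = 0 := by
  rw [cuspExp_apply]
  show (QExp.laurentExp (N : ℝ) (slTranslate g LevelOne.jInv)).coeff n = 0
  rw [slTranslate_jInv]
  exact QExp.laurentExp_coeff_of_lt (natCast_pos_real N) (isMeroAtInfty_jInv N) hn

/-- `j` has order exactly `-N` in `q_N` at every cusp. -/
theorem cuspExp_jInv_order (g : SL(2, ℤ)) : (cuspExp N g (jWH0 N)).order = -(N : ℤ) := by
  have h1 : (cuspExp N g (jWH0 N)).coeff (-(N : ℤ)) ≠ 0 := by
    rw [cuspExp_jInv_coeff]
    exact one_ne_zero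
  have hne : cuspExp N g (jWH0 N) ≠ 0 := by
    intro h0
    rw [h0] at h1
    simp at h1
  apply le_antisymm (HahnSeries.order_le_of_coeff_ne_zero h1)
  by_contra hlt
  push Not at hlt
  exact hne (HahnSeries.coeff_order_eq_zero.mp (cuspExp_jInv_coeff_of_lt N g hlt))

end Fermat.Agent.ProgramR.CuspLocal
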