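import Mathlib
import Fermat.Agent.ProgramR.CuspLocal.InftyOrbit
import Fermat.Agent.ProgramR.CuspLocal.JExp
import Fermat.Agent.ProgramR.Counting.CuspsGroup

/-!
# The dictionary at infinity for `Γ₀(N)` (Program R, package C)

`B_N = WH0 Γ₀(N)` with the instances of `Alg/Setup.lean` (Dedekind, finite torsion-free over
`ℂ[X]`, `X ↦ j`) taken as hypotheses.  The cusp expansions `cuspExp N g` form a `LaurentFamily`
indexed by `SL(2,ℤ) ⧸ Γ₀(N)`, with `⟨T⟩` acting; hence

* `card_heightOneSpectrum_Binf`: `#Spec Binf = cuspCount N`;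
* `exists_prime_forall_order_eq` (Dinf′) and `exists_coset_forall_order_eq` (Dinf):
  `ord (cuspExp N g a) = (N / width) * ordV P a`.
-/

set_option autoImplicit false
set_option linter.unusedSectionVars false
set_option linter.style.haveILetI false

noncomputable section

open Polynomial Module HahnSeries IsDedekindDomain
open Matrix Matrix.SpecialLinearGroup CongruenceSubgroup
open scoped MatrixGroups ModularGroup
open Fermat.Agent.ProgramR.RR Fermat.Agent.ProgramR.Alg

namespace Fermat.Agent.ProgramR.CuspLocal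

variable (N : ℕ) [NeZero N]

lemma cuspExp_jWH0 (g : SL(2, ℤ)) : cuspExp N g (jWH0 N) = cuspExp N 1 (jWH0 N) := by
  rw [cuspExp_apply, cuspExp_apply]
  show QExp.laurentExp (N : ℝ) (slTranslate g LevelOne.jInv) =
    QExp.laurentExp (N : ℝ) (slTranslate 1 LevelOne.jInv)
  rw [slTranslate_jInv, slTranslate_jInv]

lemma cuspExp_out_mk (g : SL(2, ℤ)) :
    cuspExp N (QuotientGroup.mk g : SL(2, ℤ) ⧸ Gamma0 N).out = cuspExp N g :=
  cuspExp_eq_of_mk_eq N (QuotientGroup.out_eq' _)

/-- the size of the `⟨T⟩`-orbit of a coset is its width. -/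
lemma orbSize_zpowers_T (x : SL(2, ℤ) ⧸ Gamma0 N) :
    CenterData.orbSize (Subgroup.zpowers ModularGroup.T) x = width N x := by
  have h := Nat.card_congr (MulAction.orbitZPowersEquiv ModularGroup.T x)
  rw [Nat.card_zmod] at h
  rw [CenterData.orbSize, width, MulAction.period_eq_minimalPeriod]
  exact h

section

variable [IsDedekindDomain ↥(WH0 (Gamma0 N))] [Algebra ℂ[X] ↥(WH0 (Gamma0 N))]
  [IsScalarTower ℂ ℂ[X] ↥(WH0 (Gamma0 N))] [Module.Finite ℂ[X] ↥(WH0 (Gamma0 N))]
  [IsTorsionFree ℂ[X] ↥(WH0 (Gamma0 N))]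
  (hj : algebraMap ℂ[X] ↥(WH0 (Gamma0 N)) X = jWH0 N)
  (hsep : ∀ g g' : SL(2, ℤ), cuspExp N g = cuspExp N g' →
    (QuotientGroup.mk g : SL(2, ℤ) ⧸ Gamma0 N) = QuotientGroup.mk g')

/-- the family of cusp expansions of `B_N`, indexed by the cosets of `Γ₀(N)`. -/
def cuspFamily : LaurentFamily ℂ ↥(WH0 (Gamma0 N)) (SL(2, ℤ) ⧸ Gamma0 N) where
  e x := cuspExp N x.out
  e_inj x := cuspExp_injective N x.out
  e_C x c := cuspExp_algebraMap N x.out c
  J := cuspExp N 1 (jWH0 N)
  e_X x := by rw [hj, cuspExp_jWH0]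
  J_order := by
    rw [cuspExp_jInv_order]
    have := NeZero.pos N
    omega
  sep := by
    intro x y hxy
    have := hsep x.out y.out hxy
    rwa [QuotientGroup.out_eq', QuotientGroup.out_eq'] at this

lemma cuspFamily_e_mk (g : SL(2, ℤ)) :
    (cuspFamily N hj hsep).e (QuotientGroup.mk g) = cuspExp N g := cuspExp_out_mk N g

lemma cuspFamily_poleOrder : (cuspFamily N hj hsep).poleOrder = N := by
  have h := (cuspFamily N hj hsep).poleOrder_spec
  have h2 : (cuspFamily N hj hsep).J.order = -(N : ℤ) := cuspExp_jInv_order N 1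
  rw [h2] at h
  omega

lemma cuspFamily_order_smul (g : Subgroup.zpowers ModularGroup.T) (x : SL(2, ℤ) ⧸ Gamma0 N)
    (b : ↥(WH0 (Gamma0 N))) :
    ((cuspFamily N hj hsep).e (g • x) b).order = ((cuspFamily N hj hsep).e x b).order := by
  obtain ⟨g, hg⟩ := g
  obtain ⟨k, rfl⟩ := Subgroup.mem_zpowers_iff.mp hg
  induction x using QuotientGroup.induction_on with
  | H h =>
    have h1 : (⟨ModularGroup.T ^ k, hg⟩ : Subgroup.zpowers ModularGroup.T) •
        (QuotientGroup.mk h : SL(2, ℤ) ⧸ Gamma0 N) = QuotientGroup.mk (ModularGroup.T ^ k * h) := by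
      show (ModularGroup.T ^ k) • (QuotientGroup.mk h : SL(2, ℤ) ⧸ Gamma0 N) = _
      rw [MulAction.Quotient.smul_mk, smul_eq_mul]
    rw [h1, cuspFamily_e_mk, cuspFamily_e_mk, cuspExp_T_zpow_mul_order]

lemma cuspFamily_orbSize_dvd (x : SL(2, ℤ) ⧸ Gamma0 N) :
    CenterData.orbSize (Subgroup.zpowers ModularGroup.T) x ∣ (cuspFamily N hj hsep).poleOrder := by
  rw [orbSize_zpowers_T, cuspFamily_poleOrder]
  exact width_dvd N x

lemma cuspFamily_supp (x : SL(2, ℤ) ⧸ Gamma0 N) (b : ↥(WH0 (Gamma0 N))) (n : ℤ)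
    (hn : ¬ (((cuspFamily N hj hsep).poleOrder /
      CenterData.orbSize (Subgroup.zpowers ModularGroup.T) x : ℕ) : ℤ) ∣ n) :
    ((cuspFamily N hj hsep).e x b).coeff n = 0 := by
  rw [orbSize_zpowers_T, cuspFamily_poleOrder] at hn
  induction x using QuotientGroup.induction_on with
  | H h =>
    rw [cuspFamily_e_mk]
    exact cuspExp_coeff_eq_zero_of_not_dvd_width N h b hn

variable (hrank : finrank ℂ[X] ↥(WH0 (Gamma0 N)) = Nat.card (SL(2, ℤ) ⧸ Gamma0 N))

include hj hsep hrank in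
/-- **The number of primes of the chart at infinity is the number of cusps.** -/
theorem card_heightOneSpectrum_Binf :
    Nat.card (HeightOneSpectrum (Binf ℂ ↥(WH0 (Gamma0 N)))) = ModularCurve.cuspCount N := by
  letI : Fintype (SL(2, ℤ) ⧸ Gamma0 N) := Fintype.ofFinite _
  rw [← card_T_orbits N]
  exact (cuspFamily N hj hsep).card_heightOneSpectrum_Binf
    (by rw [hrank, Nat.card_eq_fintype_card]) (cuspFamily_order_smul N hj hsep)
    (cuspFamily_orbSize_dvd N hj hsep) (cuspFamily_supp N hj hsep)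

/-- the prime of the chart at infinity attached to the coset `x` (the centre of the cusp
expansion). -/
def cuspPrime (x : SL(2, ℤ) ⧸ Gamma0 N) : HeightOneSpectrum (Binf ℂ ↥(WH0 (Gamma0 N))) :=
  ⟨(cuspFamily N hj hsep).centerData.center x, (cuspFamily N hj hsep).centerData.center_isPrime x,
    (cuspFamily N hj hsep).centerData.center_ne_bot (cuspFamily N hj hsep).base_ne_bot x⟩

include hrank in
/-- two cosets give the same prime at infinity iff they are in the same `⟨T⟩`-orbit. -/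
theorem cuspPrime_eq_iff (x y : SL(2, ℤ) ⧸ Gamma0 N) :
    cuspPrime N hj hsep y = cuspPrime N hj hsep x ↔
      y ∈ MulAction.orbit (Subgroup.zpowers ModularGroup.T) x := by
  letI : Fintype (SL(2, ℤ) ⧸ Gamma0 N) := Fintype.ofFinite _
  rw [← (cuspFamily N hj hsep).center_eq_iff
    (by rw [hrank, Nat.card_eq_fintype_card]) (cuspFamily_order_smul N hj hsep)
    (cuspFamily_orbSize_dvd N hj hsep) (cuspFamily_supp N hj hsep) x y]
  constructor
  · intro h
    exact congrArg HeightOneSpectrum.asIdeal h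
  · intro h
    exact HeightOneSpectrum.ext h

include hrank in
/-- every prime of the chart at infinity is the prime of a cusp. -/
theorem exists_cuspPrime_eq (P : HeightOneSpectrum (Binf ℂ ↥(WH0 (Gamma0 N)))) :
    ∃ g : SL(2, ℤ), cuspPrime N hj hsep (QuotientGroup.mk g) = P := by
  letI : Fintype (SL(2, ℤ) ⧸ Gamma0 N) := Fintype.ofFinite _
  obtain ⟨x, hx⟩ := (cuspFamily N hj hsep).exists_center_eq
    (by rw [hrank, Nat.card_eq_fintype_card]) P
  induction x using QuotientGroup.induction_on with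
  | H g => exact ⟨g, HeightOneSpectrum.ext hx⟩

include hrank in
/-- the ramification index of the prime of a cusp is the width of the cusp. -/
theorem ramificationIdx_cuspPrime (x : SL(2, ℤ) ⧸ Gamma0 N) :
    (cuspPrime N hj hsep x).asIdeal.ramificationIdx (Ainf ℂ) = width N x := by
  letI : Fintype (SL(2, ℤ) ⧸ Gamma0 N) := Fintype.ofFinite _
  rw [← orbSize_zpowers_T]
  exact (cuspFamily N hj hsep).ramificationIdx_center
    (by rw [hrank, Nat.card_eq_fintype_card]) (cuspFamily_order_smul N hj hsep)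
    (cuspFamily_orbSize_dvd N hj hsep) (cuspFamily_supp N hj hsep) x

/-- the extension of `cuspExp N g` to the fraction field `FF ℂ B_N`. -/
def cuspExpFF (g : SL(2, ℤ)) : FF ℂ ↥(WH0 (Gamma0 N)) →+* LaurentSeries ℂ :=
  (cuspFamily N hj hsep).expFF (QuotientGroup.mk g)

lemma cuspExpFF_algebraMap (g : SL(2, ℤ)) (a : ↥(WH0 (Gamma0 N))) :
    cuspExpFF N hj hsep g (algebraMap ↥(WH0 (Gamma0 N)) (FF ℂ ↥(WH0 (Gamma0 N))) a) =
      cuspExp N g a := by
  rw [cuspExpFF, LaurentFamily.expFF_algebraMap, cuspFamily_e_mk]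

include hrank in
/-- **(Dinf′), fraction field form**: the order of the cusp expansion at `g` is `N / width` times
the valuation at the prime of the cusp. -/
theorem order_cuspExpFF (g : SL(2, ℤ)) {f : FF ℂ ↥(WH0 (Gamma0 N))} (hf : f ≠ 0) :
    (cuspExpFF N hj hsep g f).order =
      ((N / width N (QuotientGroup.mk g) : ℕ) : ℤ) *
        ordV (cuspPrime N hj hsep (QuotientGroup.mk g)) f := by
  letI : Fintype (SL(2, ℤ) ⧸ Gamma0 N) := Fintype.ofFinite _
  have h := (cuspFamily N hj hsep).order_expFF_eq_mul_ordV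
    (by rw [hrank, Nat.card_eq_fintype_card]) (cuspFamily_order_smul N hj hsep)
    (cuspFamily_orbSize_dvd N hj hsep) (cuspFamily_supp N hj hsep) (QuotientGroup.mk g)
    (cuspPrime N hj hsep (QuotientGroup.mk g)) rfl hf
  rwa [orbSize_zpowers_T, cuspFamily_poleOrder] at h

include hrank in
/-- **(Dinf′)**: for `a ∈ B_N`, `ord (cuspExp N g a) = (N / width) * ordV P_g a`. -/
theorem order_cuspExp (g : SL(2, ℤ)) {a : ↥(WH0 (Gamma0 N))} (ha : a ≠ 0) :
    (cuspExp N g a).order =
      ((N / width N (QuotientGroup.mk g) : ℕ) : ℤ) *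
        ordV (cuspPrime N hj hsep (QuotientGroup.mk g))
          (algebraMap ↥(WH0 (Gamma0 N)) (FF ℂ ↥(WH0 (Gamma0 N))) a) := by
  rw [← cuspExpFF_algebraMap N hj hsep g a]
  apply order_cuspExpFF N hj hsep hrank
  exact fun h => ha (IsFractionRing.injective ↥(WH0 (Gamma0 N)) (FF ℂ ↥(WH0 (Gamma0 N)))
    (h.trans (map_zero _).symm))

lemma div_width_pos (x : SL(2, ℤ) ⧸ Gamma0 N) : 0 < N / width N x :=
  Nat.div_pos (Nat.le_of_dvd (NeZero.pos N) (width_dvd N x)) (width_pos N x)

include hj hsep hrank in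
/-- **(Dinf′)** in the shape of the plan: every coset has a prime of `Binf` and a positive
multiplier. -/
theorem exists_prime_forall_order_eq (g : SL(2, ℤ)) :
    ∃ P : HeightOneSpectrum (Binf ℂ ↥(WH0 (Gamma0 N))), ∃ s : ℕ, 0 < s ∧
      ∀ a : ↥(WH0 (Gamma0 N)), a ≠ 0 → (cuspExp N g a).order =
        (s : ℤ) * ordV P (algebraMap ↥(WH0 (Gamma0 N)) (FF ℂ ↥(WH0 (Gamma0 N))) a) :=
  ⟨cuspPrime N hj hsep (QuotientGroup.mk g), N / width N (QuotientGroup.mk g),
    div_width_pos N _, fun _ ha => order_cuspExp N hj hsep hrank g ha⟩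

include hj hsep hrank in
/-- **(Dinf)**: every prime of `Binf` is the prime of a cusp, with a positive multiplier. -/
theorem exists_coset_forall_order_eq (P : HeightOneSpectrum (Binf ℂ ↥(WH0 (Gamma0 N)))) :
    ∃ g : SL(2, ℤ), ∃ s : ℕ, 0 < s ∧
      ∀ a : ↥(WH0 (Gamma0 N)), a ≠ 0 → (cuspExp N g a).order =
        (s : ℤ) * ordV P (algebraMap ↥(WH0 (Gamma0 N)) (FF ℂ ↥(WH0 (Gamma0 N))) a) := by
  obtain ⟨g, hg⟩ := exists_cuspPrime_eq N hj hsep hrank P
  refine ⟨g, N / width N (QuotientGroup.mk g), div_width_pos N _, fun a ha => ?_⟩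
  rw [← hg]
  exact order_cuspExp N hj hsep hrank g ha

include hrank in
/-- the valuation of `j` at the prime of a cusp is minus the width. -/
theorem ordV_cuspPrime_j (g : SL(2, ℤ)) :
    ordV (cuspPrime N hj hsep (QuotientGroup.mk g))
      (algebraMap ↥(WH0 (Gamma0 N)) (FF ℂ ↥(WH0 (Gamma0 N))) (jWH0 N)) =
        -(width N (QuotientGroup.mk g) : ℤ) := by
  have hj0 : jWH0 N ≠ 0 := by
    intro h0
    have h1 := cuspExp_jInv_order N 1
    rw [h0, map_zero, HahnSeries.order_zero] at h1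
    have := NeZero.pos N
    omega
  have h := order_cuspExp N hj hsep hrank g hj0
  rw [cuspExp_jInv_order] at h
  obtain ⟨q, hq⟩ := width_dvd N (QuotientGroup.mk g)
  have hw := width_pos N (QuotientGroup.mk g)
  have hdiv : N / width N (QuotientGroup.mk g) = q := Nat.div_eq_of_eq_mul_right hw hq
  rw [hdiv] at h
  have hq0 : (q : ℤ) ≠ 0 := by
    intro h0
    have : q = 0 := by exact_mod_cast h0
    rw [this, mul_zero] at hq
    exact (NeZero.ne N) hq
  have hN : (N : ℤ) = (width N (QuotientGroup.mk g) : ℤ) * q := by exact_mod_cast hq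
  rw [hN] at h
  have h2 : (q : ℤ) * ordV (cuspPrime N hj hsep (QuotientGroup.mk g))
      (algebraMap ↥(WH0 (Gamma0 N)) (FF ℂ ↥(WH0 (Gamma0 N))) (jWH0 N)) =
      (q : ℤ) * (-(width N (QuotientGroup.mk g) : ℤ)) := by
    rw [← h]; ring
  exact mul_left_cancel₀ hq0 h2

end

end Fermat.Agent.ProgramR.CuspLocal
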