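import Mathlib
import Fermat.Agent.ProgramR.CuspLocal.CuspExp

/-!
# Functions regular at all cusps are constant (Program R, package C)
-/

set_option autoImplicit false

noncomputable section

open Complex Filter Function ModularForm
open UpperHalfPlane hiding I
open Matrix Matrix.SpecialLinearGroup CongruenceSubgroup OnePoint
open scoped Real Topology Manifold MatrixGroups ModularGroup

namespace Fermat.Agent.ProgramR.CuspLocal

variable (N : ℕ) [NeZero N]

/-- If the expansion at `g` has non-negative order then `h ∘ g⁻¹` is bounded at `i∞`. -/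
theorem isBoundedAtImInfty_slTranslate_of_order_nonneg (g : SL(2, ℤ))
    (h : ↥(WH0 (Gamma0 N))) (hreg : 0 ≤ (cuspExp N g h).order) :
    IsBoundedAtImInfty (slTranslate g h.1) := by
  obtain ⟨m, hm⟩ := exists_isMeroAtInfty_slTranslate (mem_WH0.mp h.2) g (NeZero.pos N)
    (conj_T_zpow_N_mem N g)
  have h0 : QExp.IsMeroAtInfty (N : ℝ) 0 (slTranslate g h.1) := by
    refine QExp.isMeroAtInfty_of_coeff_eq_zero (natCast_pos_real N) hm ?_
    intro n hn
    have hn' : n < (cuspExp N g h).order := by
      simp only [Nat.cast_zero, neg_zero] at hn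
      omega
    exact HahnSeries.coeff_eq_zero_of_lt_order hn'
  have := h0.bdd
  rwa [QExp.qPow_zero, one_mul] at this

/-- Weight-zero slash action of `SL(2,ℤ)` is composition. -/
lemma slash_zero_eq_slTranslate (f : ℍ → ℂ) (γ : SL(2, ℤ)) :
    f ∣[(0 : ℤ)] γ = slTranslate γ⁻¹ f := by
  funext z
  rw [SL_slash_apply, neg_zero, zpow_zero, mul_one, slTranslate_apply, inv_inv]

/-- The weight zero modular form attached to a function regular at all cusps. -/
def regularForm (h : ↥(WH0 (Gamma0 N))) (hreg : ∀ g : SL(2, ℤ), 0 ≤ (cuspExp N g h).order) :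
    ModularForm ((Gamma0 N : Subgroup SL(2, ℤ)) : Subgroup (GL (Fin 2) ℝ)) 0 where
  toFun := h.1
  slash_action_eq' := by
    rintro _ ⟨γ, hγ, rfl⟩
    show h.1 ∣[(0 : ℤ)] γ = h.1
    rw [slash_zero_eq_slTranslate]
    funext z
    rw [slTranslate_apply, inv_inv]
    exact (mem_WH0.mp h.2).smul_eq γ hγ z
  holo' := (mem_WH0.mp h.2).mdiff
  bdd_at_cusps' {c} hc := by
    rw [Subgroup.IsArithmetic.isCusp_iff_isCusp_SL2Z] at hc
    rw [isBoundedAt_iff_forall_SL2Z hc]
    intro γ _
    rw [slash_zero_eq_slTranslate]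
    exact isBoundedAtImInfty_slTranslate_of_order_nonneg N γ⁻¹ h (hreg γ⁻¹)

/-- A weakly holomorphic `Γ₀(N)`-invariant function which is regular at all cusps is constant. -/
theorem eq_const_of_forall_order_nonneg (h : ↥(WH0 (Gamma0 N)))
    (hreg : ∀ g : SL(2, ℤ), 0 ≤ (cuspExp N g h).order) :
    ∃ c : ℂ, h = algebraMap ℂ ↥(WH0 (Gamma0 N)) c := by
  obtain ⟨c, hc⟩ := ModularForm.eq_const_of_weight_zero (regularForm N h hreg)
  refine ⟨c, Subtype.ext ?_⟩
  funext z
  have := congrFun hc z
  exact this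

end Fermat.Agent.ProgramR.CuspLocal
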