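import Mathlib
import Fermat.Agent.ProgramR.CuspLocal.InftyDict
import Fermat.Agent.ProgramR.CuspLocal.Regular
import Fermat.Agent.ProgramR.Analytic.Gamma0Chart

/-!
# The chart at infinity of `B_N = WH0 Γ₀(N)`, unconditionally (Program R, item (b))

With the instances of `Analytic/WH0Ring`, `WH0Dedekind`, `Gamma0Chart` (`B_N` Dedekind, finite of
rank `ψ(N)` over `ℂ[X]`, `X ↦ j`) and the distinct conjugates of `j_N`, the hypotheses of
`InftyDict.lean` are discharged: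

* `card_heightOneSpectrum_Binf_Gamma0` (`hinf` of `S20/Assembly.lean`);
* `const_of_mem_range_of_mem_range` (`hconst` of `S20/Assembly.lean`);
* `dinf`, `dinf'`: the dictionary at infinity in the two-element form.
-/

set_option autoImplicit false
set_option linter.unusedSectionVars false
set_option linter.style.haveILetI false

noncomputable section

open Polynomial Module HahnSeries IsDedekindDomain
open Matrix Matrix.SpecialLinearGroup CongruenceSubgroup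
open scoped MatrixGroups ModularGroup
open Fermat.Agent.ProgramR.RR Fermat.Agent.ProgramR.Alg

namespace Fermat.Agent.ProgramR.CuspLocal

attribute [local instance] Genus.cosetFintype

variable (N : ℕ) [NeZero N]

lemma algebraMap_X_eq_jWH0 : algebraMap ℂ[X] ↥(WH0 (Gamma0 N)) X = jWH0 N := by
  rw [WH0.algebraMap_poly, Polynomial.aeval_X]
  rfl

/-- distinct cosets have distinct cusp expansions (via the conjugates of `j_N`). -/
lemma cuspExp_sep (g g' : SL(2, ℤ)) (h : cuspExp N g = cuspExp N g') :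
    (QuotientGroup.mk g : SL(2, ℤ) ⧸ Gamma0 N) = QuotientGroup.mk g' := by
  rw [QuotientGroup.eq, ← slComp_inv_jN_eq_iff]
  have h1 : cuspExp N g (jNWH0 N) = cuspExp N g' (jNWH0 N) := by rw [h]
  have h2 : translateHom N g (jNWH0 N) = translateHom N g' (jNWH0 N) :=
    QExp.laurentExpHom_injective (N : ℝ) (natCast_pos_real N) h1
  apply Hol.ext
  intro z
  exact congrFun (congrArg Subtype.val h2) z

lemma finrank_eq_card_coset :
    finrank ℂ[X] ↥(WH0 (Gamma0 N)) = Nat.card (SL(2, ℤ) ⧸ Gamma0 N) := by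
  rw [Nat.card_eq_fintype_card, gamma0Chart_card N]

/-- **`hinf`**: the number of primes of the chart at infinity of `B_N` is the number of cusps. -/
theorem card_heightOneSpectrum_Binf_Gamma0 :
    Nat.card (HeightOneSpectrum (Binf ℂ ↥(WH0 (Gamma0 N)))) = ModularCurve.cuspCount N :=
  card_heightOneSpectrum_Binf N (algebraMap_X_eq_jWH0 N) (cuspExp_sep N) (finrank_eq_card_coset N)

/-- the family of cusp expansions of `B_N`. -/
abbrev gamma0Family : LaurentFamily ℂ ↥(WH0 (Gamma0 N)) (SL(2, ℤ) ⧸ Gamma0 N) :=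
  cuspFamily N (algebraMap_X_eq_jWH0 N) (cuspExp_sep N)

/-- an element of `B_N` which is integral over `Ainf` is regular at every cusp. -/
lemma order_cuspExp_nonneg_of_mem_Binf (b : ↥(WH0 (Gamma0 N)))
    (hb : algebraMap ↥(WH0 (Gamma0 N)) (FF ℂ ↥(WH0 (Gamma0 N))) b ∈ Binf ℂ ↥(WH0 (Gamma0 N)))
    (g : SL(2, ℤ)) : 0 ≤ (cuspExp N g b).order := by
  have h := (gamma0Family N).order_expFF_nonneg (QuotientGroup.mk g) ⟨_, hb⟩
  rwa [LaurentFamily.expFF_algebraMap, cuspFamily_e_mk] at h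

/-- **`hconst`**: `B_N ∩ Binf = ℂ`. -/
theorem const_of_mem_range_of_mem_range (h : FF ℂ ↥(WH0 (Gamma0 N)))
    (h1 : h ∈ Set.range (algebraMap ↥(WH0 (Gamma0 N)) (FF ℂ ↥(WH0 (Gamma0 N)))))
    (h2 : h ∈ Set.range (algebraMap (Binf ℂ ↥(WH0 (Gamma0 N))) (FF ℂ ↥(WH0 (Gamma0 N))))) :
    h ∈ Set.range (algebraMap ℂ (FF ℂ ↥(WH0 (Gamma0 N)))) := by
  obtain ⟨b, rfl⟩ := h1
  obtain ⟨s, hs⟩ := h2
  have hb : algebraMap ↥(WH0 (Gamma0 N)) (FF ℂ ↥(WH0 (Gamma0 N))) b ∈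
      Binf ℂ ↥(WH0 (Gamma0 N)) := by
    rw [← hs]
    exact s.2
  obtain ⟨c, hc⟩ := eq_const_of_forall_order_nonneg N b
    (order_cuspExp_nonneg_of_mem_Binf N b hb)
  refine ⟨c, ?_⟩
  rw [hc, ← IsScalarTower.algebraMap_apply]

/-- the prime of the chart at infinity attached to a coset. -/
abbrev gamma0CuspPrime (x : SL(2, ℤ) ⧸ Gamma0 N) :
    HeightOneSpectrum (Binf ℂ ↥(WH0 (Gamma0 N))) :=
  cuspPrime N (algebraMap_X_eq_jWH0 N) (cuspExp_sep N) x

/-- **(Dinf′), one element**: `ord_g a = (N / width) * ordV P_g a`. -/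
theorem order_cuspExp_Gamma0 (g : SL(2, ℤ)) {a : ↥(WH0 (Gamma0 N))} (ha : a ≠ 0) :
    (cuspExp N g a).order =
      ((N / width N (QuotientGroup.mk g) : ℕ) : ℤ) *
        ordV (gamma0CuspPrime N (QuotientGroup.mk g))
          (algebraMap ↥(WH0 (Gamma0 N)) (FF ℂ ↥(WH0 (Gamma0 N))) a) :=
  order_cuspExp N (algebraMap_X_eq_jWH0 N) (cuspExp_sep N) (finrank_eq_card_coset N) g ha

theorem ramificationIdx_gamma0CuspPrime (x : SL(2, ℤ) ⧸ Gamma0 N) :
    (gamma0CuspPrime N x).asIdeal.ramificationIdx (Ainf ℂ) = width N x :=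
  ramificationIdx_cuspPrime N (algebraMap_X_eq_jWH0 N) (cuspExp_sep N) (finrank_eq_card_coset N) x

theorem gamma0CuspPrime_eq_iff (x y : SL(2, ℤ) ⧸ Gamma0 N) :
    gamma0CuspPrime N y = gamma0CuspPrime N x ↔
      y ∈ MulAction.orbit (Subgroup.zpowers ModularGroup.T) x :=
  cuspPrime_eq_iff N (algebraMap_X_eq_jWH0 N) (cuspExp_sep N) (finrank_eq_card_coset N) x y

theorem exists_gamma0CuspPrime_eq (P : HeightOneSpectrum (Binf ℂ ↥(WH0 (Gamma0 N)))) :
    ∃ g : SL(2, ℤ), gamma0CuspPrime N (QuotientGroup.mk g) = P :=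
  exists_cuspPrime_eq N (algebraMap_X_eq_jWH0 N) (cuspExp_sep N) (finrank_eq_card_coset N) P

theorem ordV_gamma0CuspPrime_j (g : SL(2, ℤ)) :
    ordV (gamma0CuspPrime N (QuotientGroup.mk g))
      (algebraMap ↥(WH0 (Gamma0 N)) (FF ℂ ↥(WH0 (Gamma0 N))) (jWH0 N)) =
        -(width N (QuotientGroup.mk g) : ℤ) :=
  ordV_cuspPrime_j N (algebraMap_X_eq_jWH0 N) (cuspExp_sep N) (finrank_eq_card_coset N) g

/-- two-element form of the order formula at a given prime. -/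
lemma mul_ordV_div_eq (Q : HeightOneSpectrum (Binf ℂ ↥(WH0 (Gamma0 N)))) (g : SL(2, ℤ))
    (hQ : gamma0CuspPrime N (QuotientGroup.mk g) = Q) (a b : ↥(WH0 (Gamma0 N))) (ha : a ≠ 0)
    (hb : b ≠ 0) :
    ((N / width N (QuotientGroup.mk g) : ℕ) : ℤ) *
      ordV Q (algebraMap ↥(WH0 (Gamma0 N)) (FF ℂ ↥(WH0 (Gamma0 N))) a /
        algebraMap ↥(WH0 (Gamma0 N)) (FF ℂ ↥(WH0 (Gamma0 N))) b) =
      (cuspExp N g a).order - (cuspExp N g b).order := by
  have ha' : algebraMap ↥(WH0 (Gamma0 N)) (FF ℂ ↥(WH0 (Gamma0 N))) a ≠ 0 := fun h =>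
    ha (IsFractionRing.injective ↥(WH0 (Gamma0 N)) (FF ℂ ↥(WH0 (Gamma0 N)))
      (h.trans (map_zero _).symm))
  have hb' : algebraMap ↥(WH0 (Gamma0 N)) (FF ℂ ↥(WH0 (Gamma0 N))) b ≠ 0 := fun h =>
    hb (IsFractionRing.injective ↥(WH0 (Gamma0 N)) (FF ℂ ↥(WH0 (Gamma0 N)))
      (h.trans (map_zero _).symm))
  rw [order_cuspExp_Gamma0 N g ha, order_cuspExp_Gamma0 N g hb, hQ, div_eq_mul_inv,
    ordV_mul Q ha' (inv_ne_zero hb'), ordV_inv]
  ring

/-- **(Dinf)** in the shape of the plan (msg 177). -/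
theorem dinf (Q : HeightOneSpectrum (Binf ℂ ↥(WH0 (Gamma0 N)))) :
    ∃ (g : SL(2, ℤ)) (s : ℕ), 0 < s ∧ ∀ a b : ↥(WH0 (Gamma0 N)), a ≠ 0 → b ≠ 0 →
      (s : ℤ) * ordV Q (algebraMap ↥(WH0 (Gamma0 N)) (FF ℂ ↥(WH0 (Gamma0 N))) a /
        algebraMap ↥(WH0 (Gamma0 N)) (FF ℂ ↥(WH0 (Gamma0 N))) b) =
      (cuspExp N g a).order - (cuspExp N g b).order := by
  obtain ⟨g, hg⟩ := exists_gamma0CuspPrime_eq N Q
  exact ⟨g, N / width N (QuotientGroup.mk g), div_width_pos N _,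
    fun a b ha hb => mul_ordV_div_eq N Q g hg a b ha hb⟩

/-- **(Dinf′)** in the shape of the plan (msg 177). -/
theorem dinf' (g : SL(2, ℤ)) :
    ∃ (Q : HeightOneSpectrum (Binf ℂ ↥(WH0 (Gamma0 N)))) (s : ℕ), 0 < s ∧
      ∀ a b : ↥(WH0 (Gamma0 N)), a ≠ 0 → b ≠ 0 →
      (s : ℤ) * ordV Q (algebraMap ↥(WH0 (Gamma0 N)) (FF ℂ ↥(WH0 (Gamma0 N))) a /
        algebraMap ↥(WH0 (Gamma0 N)) (FF ℂ ↥(WH0 (Gamma0 N))) b) =
      (cuspExp N g a).order - (cuspExp N g b).order :=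
  ⟨gamma0CuspPrime N (QuotientGroup.mk g), N / width N (QuotientGroup.mk g), div_width_pos N _,
    fun a b ha hb => mul_ordV_div_eq N _ g rfl a b ha hb⟩

end Fermat.Agent.ProgramR.CuspLocal
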